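/-
Project MW (S17), leaf [VDMC] (helper11), part (a): Laplace expansion along the last column and the
vanishing of the alien cofactor sums (Mathlib only).  Prefix `mw_vdmc_`.
-/
import Mathlib

set_option autoImplicit false

namespace Fermat.Agent.MW

open Matrix

variable {R : Type*} [CommRing R]

/-- Laplace expansion along the last column -/
theorem mw_vdmc_det_last {n : ℕ} (A : Matrix (Fin (n + 1)) (Fin (n + 1)) R) :
    A.det = ∑ i : Fin (n + 1), (-1) ^ ((i : ℕ) + n) * A i (Fin.last n) *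
      (A.submatrix i.succAbove Fin.castSucc).det := by
  rw [Matrix.det_succ_column A (Fin.last n)]
  refine Finset.sum_congr rfl fun i _ => ?_
  rw [Fin.val_last, Fin.succAbove_last]

/-- the alien cofactor sums vanish -/
theorem mw_vdmc_det_alien {n : ℕ} (A : Matrix (Fin (n + 1)) (Fin (n + 1)) R) (k : Fin n) :
    ∑ i : Fin (n + 1), (-1) ^ ((i : ℕ) + n) * A i k.castSucc *
      (A.submatrix i.succAbove Fin.castSucc).det = 0 := by
  set A' : Matrix (Fin (n + 1)) (Fin (n + 1)) R :=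
    A.updateCol (Fin.last n) (fun i => A i k.castSucc) with hA'
  have hne : k.castSucc ≠ Fin.last n := (Fin.castSucc_lt_last k).ne
  have h0 : A'.det = 0 := by
    refine Matrix.det_zero_of_column_eq hne fun i => ?_
    rw [hA', Matrix.updateCol_apply, Matrix.updateCol_apply, if_neg hne, if_pos rfl]
  rw [mw_vdmc_det_last A'] at h0
  rw [← h0]
  refine Finset.sum_congr rfl fun i _ => ?_
  have h1 : A' i (Fin.last n) = A i k.castSucc := by
    rw [hA', Matrix.updateCol_apply, if_pos rfl]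
  have h2 : A'.submatrix i.succAbove Fin.castSucc = A.submatrix i.succAbove Fin.castSucc := by
    ext a b
    rw [Matrix.submatrix_apply, Matrix.submatrix_apply, hA', Matrix.updateCol_apply,
      if_neg (Fin.castSucc_lt_last b).ne]
  rw [h1, h2]

/-! ### determinants of the jet matrix on prefixes of the columns -/

variable {ι : Type*} {m : ℕ}

/-- the determinant of the rows `ρ` and the first `n` columns of `J` -/
noncomputable def mw_vdmc_D (J : ι → Fin m → R) (n : ℕ) (hn : n ≤ m) (ρ : Fin n → ι) : R :=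
  (Matrix.of fun (i k : Fin n) => J (ρ i) (Fin.castLE hn k)).det

theorem mw_vdmc_D_zero (J : ι → Fin m → R) (hn : 0 ≤ m) (ρ : Fin 0 → ι) :
    mw_vdmc_D J 0 hn ρ = 1 := by
  rw [mw_vdmc_D, Matrix.det_isEmpty]

/-- the cofactor coefficients of the expansion along the last column -/
noncomputable def mw_vdmc_cof (J : ι → Fin m → R) (n : ℕ) (hn : n + 1 ≤ m) (ρ : Fin (n + 1) → ι)
    (i : Fin (n + 1)) : R :=
  (-1) ^ ((i : ℕ) + n) * mw_vdmc_D J n (Nat.le_of_succ_le hn) (ρ ∘ i.succAbove)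

theorem mw_vdmc_D_succ (J : ι → Fin m → R) (n : ℕ) (hn : n + 1 ≤ m) (ρ : Fin (n + 1) → ι) :
    mw_vdmc_D J (n + 1) hn ρ =
      ∑ i, mw_vdmc_cof J n hn ρ i * J (ρ i) ⟨n, hn⟩ := by
  rw [mw_vdmc_D, mw_vdmc_det_last]
  refine Finset.sum_congr rfl fun i _ => ?_
  rw [mw_vdmc_cof, mw_vdmc_D, Matrix.of_apply, mul_right_comm]
  rfl

theorem mw_vdmc_D_alien (J : ι → Fin m → R) (n : ℕ) (hn : n + 1 ≤ m) (ρ : Fin (n + 1) → ι)
    (k : Fin n) :
    ∑ i, mw_vdmc_cof J n hn ρ i * J (ρ i) (Fin.castLE (Nat.le_of_succ_le hn) k) = 0 := by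
  have := mw_vdmc_det_alien
    (Matrix.of fun (i k : Fin (n + 1)) => J (ρ i) (Fin.castLE hn k)) k
  rw [← this]
  refine Finset.sum_congr rfl fun i _ => ?_
  rw [mw_vdmc_cof, mw_vdmc_D, Matrix.of_apply, mul_right_comm]
  rfl

end Fermat.Agent.MW
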