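/-
Project MW (S17), leaf [VDMC] (helper11), part (c1): elementary local estimates at an absolute value
`w` of a number field `K' ≤ Q̄` — sums (`C₁ = m` / `1`), wedges (`C₂ = 2` / `1`), minors of a matrix
with entries in `K'`, the norm of a linear combination of rows.  Prefix `mw_vdmc_`.
-/
import Fermat.Agent.MW.Global.GKL.Wedge
import Fermat.Agent.MW.Global.VDMC.Det

set_option autoImplicit false
set_option linter.unusedSectionVars false

noncomputable section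

namespace Fermat.Agent.MW

open Height AdmissibleAbsValues NumberField
open scoped Classical

/-! ### sums -/

theorem mw_vdmc_abs_sum_le {F ι : Type*} [Field F] (w : AbsoluteValue F ℝ) (s : Finset ι)
    (u : ι → F) (B : ℝ) (hB : 0 ≤ B) (h : ∀ i ∈ s, w (u i) ≤ B) :
    w (∑ i ∈ s, u i) ≤ s.card * B ∧ (IsNonarchimedean w → w (∑ i ∈ s, u i) ≤ B) := by
  induction s using Finset.induction_on with
  | empty => simp [hB]
  | insert a s ha ih =>
    obtain ⟨ih1, ih2⟩ := ih fun i hi => h i (Finset.mem_insert_of_mem hi)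
    have h1 := h a (Finset.mem_insert_self a s)
    rw [Finset.sum_insert ha, Finset.card_insert_of_notMem ha]
    constructor
    · refine (w.add_le _ _).trans ?_
      push_cast
      linarith
    · intro hna
      exact (hna _ _).trans (max_le h1 (ih2 hna))

variable (K' : IntermediateField ℚ mw_K) (w : AbsoluteValue ↥K' ℝ)

/-- the constant of the triangle inequality for sums of at most `m` terms -/
def mw_vdmc_SumBd (m : ℕ) (C₁ : ℝ) : Prop :=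
  ∀ (n' : ℕ), n' ≤ m → ∀ (u : Fin n' → ↥K') (B : ℝ), 0 ≤ B → (∀ i, w (u i) ≤ B) →
    w (∑ i, u i) ≤ C₁ * B

/-- the constant of the wedge inequality -/
def mw_vdmc_WedgeBd (r : ℕ) (C₂ : ℝ) : Prop :=
  ∀ u v : Fin (r + 1) → mw_K, (∀ i, u i ∈ K') → (∀ i, v i ∈ K') →
    mw_wnorm K' w (mw_wedge u v) ≤ C₂ * (mw_wnorm K' w u * mw_wnorm K' w v)

theorem mw_vdmc_sumBd_arch (m : ℕ) : mw_vdmc_SumBd K' w m (m : ℝ) := by
  intro n' hn' u B hB hu
  have h1 := (mw_vdmc_abs_sum_le w Finset.univ u B hB fun i _ => hu i).1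
  rw [Finset.card_univ, Fintype.card_fin] at h1
  refine h1.trans ?_
  have : (n' : ℝ) ≤ m := by exact_mod_cast hn'
  nlinarith

theorem mw_vdmc_sumBd_nonarch (hna : IsNonarchimedean w) (m : ℕ) : mw_vdmc_SumBd K' w m 1 := by
  intro n' _ u B hB hu
  rw [one_mul]
  exact (mw_vdmc_abs_sum_le w Finset.univ u B hB fun i _ => hu i).2 hna

theorem mw_vdmc_wedgeBd_arch (r : ℕ) : mw_vdmc_WedgeBd K' w r 2 := fun _ _ hu hv =>
  (mw_gkl_wnorm_wedge_le K' w hu hv).1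

theorem mw_vdmc_wedgeBd_nonarch (hna : IsNonarchimedean w) (r : ℕ) : mw_vdmc_WedgeBd K' w r 1 :=
  fun _ _ hu hv => by
    rw [one_mul]
    exact (mw_gkl_wnorm_wedge_le K' w hu hv).2 hna

/-- **the elementary constants at a place with an admissible bound**: at an archimedean place
`C₁ = m`, `C₂ = 2`; at a finite place `C₁ = C₂ = 1`. -/
theorem mw_vdmc_consts [NumberField ↥K'] (m r a : ℕ) (hm : 1 ≤ m) {b₂ : ℝ}
    (hb : mw_IsBound K' w (Real.log m + a * Real.log 2) (fun _ => 0) b₂) :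
    ∃ C₁ C₂ : ℝ, 1 ≤ C₁ ∧ 1 ≤ C₂ ∧ mw_vdmc_SumBd K' w m C₁ ∧ mw_vdmc_WedgeBd K' w r C₂ ∧
      Real.log C₁ + a * Real.log C₂ ≤ b₂ := by
  rcases hb with ⟨-, rfl⟩ | ⟨hn, p, -, -, rfl⟩
  · refine ⟨m, 2, by exact_mod_cast hm, by norm_num, mw_vdmc_sumBd_arch K' w m,
      mw_vdmc_wedgeBd_arch K' w r, le_rfl⟩
  · have hna : IsNonarchimedean w := isNonarchimedean w hn
    refine ⟨1, 1, le_rfl, le_rfl, mw_vdmc_sumBd_nonarch K' w hna m,
      mw_vdmc_wedgeBd_nonarch K' w hna r, ?_⟩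
    simp

/-! ### `mw_wabs` of signs, minors -/

theorem mw_vdmc_wabs_one : mw_wabs K' w 1 = 1 := by
  rw [mw_la_wabs_of_mem K' w K'.one_mem]
  exact w.map_one

theorem mw_vdmc_wabs_neg (z : mw_K) : mw_wabs K' w (-z) = mw_wabs K' w z := by
  by_cases hz : z ∈ K'
  · rw [mw_la_wabs_of_mem K' w hz, mw_la_wabs_of_mem K' w (K'.neg_mem hz), ← w.map_neg]
    congr 1
    apply Subtype.ext
    simp
  · have : -z ∉ K' := fun h => hz (by simpa using K'.neg_mem h)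
    rw [mw_la_wabs_of_not_mem K' w hz, mw_la_wabs_of_not_mem K' w this]

theorem mw_vdmc_wabs_sign_mul (k : ℕ) (z : mw_K) :
    mw_wabs K' w ((-1) ^ k * z) = mw_wabs K' w z := by
  rcases Nat.even_or_odd k with hk | hk
  · rw [hk.neg_one_pow, one_mul]
  · rw [hk.neg_one_pow, neg_one_mul, mw_vdmc_wabs_neg]

variable {K'}

theorem mw_vdmc_det_mem {n : ℕ} (M : Matrix (Fin n) (Fin n) mw_K) (hM : ∀ i k, M i k ∈ K') :
    M.det ∈ K' := by
  rw [Matrix.det_apply']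
  refine sum_mem fun σ _ => mul_mem (intCast_mem K' _) (prod_mem fun i _ => hM _ _)

theorem mw_vdmc_D_mem {ι : Type*} {m : ℕ} (J : ι → Fin m → mw_K) (hJ : ∀ i k, J i k ∈ K')
    (n : ℕ) (hn : n ≤ m) (ρ : Fin n → ι) : mw_vdmc_D J n hn ρ ∈ K' :=
  mw_vdmc_det_mem _ fun _ _ => hJ _ _

theorem mw_vdmc_cof_mem {ι : Type*} {m : ℕ} (J : ι → Fin m → mw_K) (hJ : ∀ i k, J i k ∈ K')
    (n : ℕ) (hn : n + 1 ≤ m) (ρ : Fin (n + 1) → ι) (i : Fin (n + 1)) :
    mw_vdmc_cof J n hn ρ i ∈ K' :=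
  mul_mem (pow_mem (neg_mem K'.one_mem) _) (mw_vdmc_D_mem J hJ _ _ _)

variable (K')

theorem mw_vdmc_wabs_cof {ι : Type*} {m : ℕ} (J : ι → Fin m → mw_K)
    (n : ℕ) (hn : n + 1 ≤ m) (ρ : Fin (n + 1) → ι) (i : Fin (n + 1)) :
    mw_wabs K' w (mw_vdmc_cof J n hn ρ i)
      = mw_wabs K' w (mw_vdmc_D J n (Nat.le_of_succ_le hn) (ρ ∘ i.succAbove)) := by
  rw [mw_vdmc_cof, mw_vdmc_wabs_sign_mul]

/-! ### the norm of a linear combination of rows -/

theorem mw_vdmc_wnorm_comb {m : ℕ} {C₁ : ℝ} (hC₁ : mw_vdmc_SumBd K' w m C₁) {n' s : ℕ}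
    (hn' : n' ≤ m) (lam : Fin n' → mw_K) (M : Fin n' → Fin (s + 1) → mw_K)
    (hlam : ∀ i, lam i ∈ K') (hM : ∀ i b, M i b ∈ K') (Bl BM : ℝ) (hBl0 : 0 ≤ Bl) (hBM0 : 0 ≤ BM)
    (hBl : ∀ i, mw_wabs K' w (lam i) ≤ Bl) (hBM : ∀ i b, mw_wabs K' w (M i b) ≤ BM) :
    mw_wnorm K' w (fun b => ∑ i, lam i * M i b) ≤ C₁ * (Bl * BM) := by
  refine ciSup_le fun b => ?_
  have hmem : ∑ i, lam i * M i b ∈ K' := sum_mem fun i _ => mul_mem (hlam i) (hM i b)
  rw [mw_la_wabs_of_mem K' w hmem]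
  have e : (⟨∑ i, lam i * M i b, hmem⟩ : ↥K')
      = ∑ i, (⟨lam i, hlam i⟩ : ↥K') * ⟨M i b, hM i b⟩ := by
    apply Subtype.ext
    simp
  rw [e]
  refine hC₁ n' hn' _ _ (mul_nonneg hBl0 hBM0) fun i => ?_
  rw [w.map_mul]
  have h1 := hBl i
  have h2 := hBM i b
  rw [mw_la_wabs_of_mem K' w (hlam i)] at h1
  rw [mw_la_wabs_of_mem K' w (hM i b)] at h2
  exact mul_le_mul h1 h2 (w.nonneg _) hBl0

/-- `log δ_w ≤ log C₂` -/
theorem mw_vdmc_log_delta_le {r : ℕ} {C₂ : ℝ} (hC₂ : mw_vdmc_WedgeBd K' w r C₂) (h1 : 1 ≤ C₂)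
    {u v : Fin (r + 1) → mw_K} (hu : ∀ i, u i ∈ K') (hv : ∀ i, v i ∈ K') (hu0 : u ≠ 0)
    (hv0 : v ≠ 0) : Real.log (mw_delta K' w u v) ≤ Real.log C₂ := by
  have hpu := mw_la_wnorm_pos K' w hu0 hu
  have hpv := mw_la_wnorm_pos K' w hv0 hv
  have hle : mw_delta K' w u v ≤ C₂ := by
    rw [mw_delta, div_le_iff₀ (mul_pos hpu hpv)]
    exact hC₂ u v hu hv
  have h0 : 0 ≤ mw_delta K' w u v :=
    div_nonneg (mw_la_wnorm_nonneg K' w _) (mul_pos hpu hpv).le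
  rcases eq_or_lt_of_le h0 with h | h
  · rw [← h, Real.log_zero]
    exact Real.log_nonneg h1
  · exact Real.log_le_log h hle

end Fermat.Agent.MW
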