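/-
Project MW (S17), leaf [VDMC] (helper11), part (b1): the combinatorics of an enumeration
`pts : Fin m → α` with repetitions — prefix multiplicities and the jet orders (Mathlib only).
Prefix `mw_vdmc_`.
-/
import Mathlib

set_option autoImplicit false

namespace Fermat.Agent.MW

open scoped Classical

variable {α : Type*} {m : ℕ}

/-- the number of indices `l < n` with `pts l = Q` -/
noncomputable def mw_vdmc_cnt (pts : Fin m → α) (n : ℕ) (Q : α) : ℕ :=
  (Finset.univ.filter fun l : Fin m => l.val < n ∧ pts l = Q).card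

/-- the jet order at the `k`-th point: the number of earlier occurrences of the same point -/
noncomputable def mw_vdmc_jn (pts : Fin m → α) (k : Fin m) : ℕ := mw_vdmc_cnt pts k.val (pts k)

theorem mw_vdmc_cnt_zero (pts : Fin m → α) (Q : α) : mw_vdmc_cnt pts 0 Q = 0 := by
  simp [mw_vdmc_cnt]

theorem mw_vdmc_cnt_succ (pts : Fin m → α) (n : ℕ) (hn : n < m) (Q : α) :
    mw_vdmc_cnt pts (n + 1) Q = mw_vdmc_cnt pts n Q + if pts ⟨n, hn⟩ = Q then 1 else 0 := by
  unfold mw_vdmc_cnt
  have hsplit : (Finset.univ.filter fun l : Fin m => l.val < n + 1 ∧ pts l = Q)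
      = (Finset.univ.filter fun l : Fin m => l.val < n ∧ pts l = Q)
        ∪ (Finset.univ.filter fun l : Fin m => l = ⟨n, hn⟩ ∧ pts l = Q) := by
    ext l
    simp only [Finset.mem_filter, Finset.mem_univ, true_and, Finset.mem_union]
    constructor
    · rintro ⟨h1, h2⟩
      by_cases h : l.val < n
      · exact Or.inl ⟨h, h2⟩
      · exact Or.inr ⟨Fin.ext (by simp only; omega), h2⟩
    · rintro (⟨h1, h2⟩ | ⟨h1, h2⟩)
      · exact ⟨by omega, h2⟩
      · exact ⟨by rw [h1]; simp, h2⟩
  have hdisj : Disjoint (Finset.univ.filter fun l : Fin m => l.val < n ∧ pts l = Q)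
      (Finset.univ.filter fun l : Fin m => l = ⟨n, hn⟩ ∧ pts l = Q) := by
    rw [Finset.disjoint_left]
    intro l h1 h2
    simp only [Finset.mem_filter, Finset.mem_univ, true_and] at h1 h2
    rw [h2.1] at h1
    simp at h1
  rw [hsplit, Finset.card_union_of_disjoint hdisj]
  congr 1
  by_cases h : pts ⟨n, hn⟩ = Q
  · rw [if_pos h]
    have : (Finset.univ.filter fun l : Fin m => l = ⟨n, hn⟩ ∧ pts l = Q) = {⟨n, hn⟩} := by
      ext l
      simp only [Finset.mem_filter, Finset.mem_univ, true_and, Finset.mem_singleton]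
      constructor
      · exact fun h' => h'.1
      · intro h'; exact ⟨h', by rw [h']; exact h⟩
    rw [this, Finset.card_singleton]
  · rw [if_neg h]
    rw [Finset.card_eq_zero, Finset.filter_eq_empty_iff]
    rintro l - ⟨h1, h2⟩
    rw [h1] at h2
    exact h h2

theorem mw_vdmc_cnt_mono (pts : Fin m → α) {n n' : ℕ} (h : n ≤ n') (Q : α) :
    mw_vdmc_cnt pts n Q ≤ mw_vdmc_cnt pts n' Q := by
  unfold mw_vdmc_cnt
  refine Finset.card_le_card fun l hl => ?_
  simp only [Finset.mem_filter, Finset.mem_univ, true_and] at hl ⊢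
  exact ⟨by omega, hl.2⟩

theorem mw_vdmc_cnt_top (pts : Fin m → α) (Q : α) :
    mw_vdmc_cnt pts m Q = (Finset.univ.filter fun l : Fin m => pts l = Q).card := by
  unfold mw_vdmc_cnt
  congr 1
  ext l
  simp only [Finset.mem_filter, Finset.mem_univ, true_and]
  exact ⟨fun h => h.2, fun h => ⟨l.2, h⟩⟩

/-- the index `k` itself is counted in the next prefix -/
theorem mw_vdmc_jn_lt_cnt (pts : Fin m → α) (k : Fin m) :
    mw_vdmc_jn pts k < mw_vdmc_cnt pts m (pts k) := by
  have h1 := mw_vdmc_cnt_succ pts k.val k.2 (pts k)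
  rw [if_pos rfl] at h1
  have h2 := mw_vdmc_cnt_mono pts (show k.val + 1 ≤ m from k.2) (pts k)
  unfold mw_vdmc_jn
  omega

/-- every `j` below the prefix multiplicity is the jet order of an earlier index -/
theorem mw_vdmc_exists_of_lt_cnt (pts : Fin m → α) (Q : α) :
    ∀ n : ℕ, n ≤ m → ∀ j : ℕ, j < mw_vdmc_cnt pts n Q →
      ∃ l : Fin m, l.val < n ∧ pts l = Q ∧ mw_vdmc_jn pts l = j := by
  intro n
  induction n with
  | zero =>
    intro _ j hj
    rw [mw_vdmc_cnt_zero] at hj
    exact absurd hj (Nat.not_lt_zero j)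
  | succ n ih =>
    intro hn j hj
    have hn' : n < m := hn
    rw [mw_vdmc_cnt_succ pts n hn' Q] at hj
    by_cases h : j < mw_vdmc_cnt pts n Q
    · obtain ⟨l, hl, hlQ, hlj⟩ := ih (Nat.le_of_lt hn') j h
      exact ⟨l, by omega, hlQ, hlj⟩
    · have hQ : pts ⟨n, hn'⟩ = Q := by
        by_contra hne
        rw [if_neg hne] at hj
        omega
      rw [if_pos hQ] at hj
      refine ⟨⟨n, hn'⟩, Nat.lt_succ_self n, hQ, ?_⟩
      unfold mw_vdmc_jn
      rw [hQ]
      simp only
      omega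

/-- an earlier occurrence of the same point makes the jet order positive -/
theorem mw_vdmc_cnt_pos (pts : Fin m → α) {n : ℕ} {l : Fin m} (hl : l.val < n) :
    0 < mw_vdmc_cnt pts n (pts l) := by
  unfold mw_vdmc_cnt
  exact Finset.card_pos.mpr ⟨l, by simp [hl]⟩

theorem mw_vdmc_cnt_eq_zero (pts : Fin m → α) {n : ℕ} {Q : α}
    (h : ∀ l : Fin m, l.val < n → pts l ≠ Q) : mw_vdmc_cnt pts n Q = 0 := by
  unfold mw_vdmc_cnt
  rw [Finset.card_eq_zero, Finset.filter_eq_empty_iff]
  rintro l - ⟨h1, h2⟩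
  exact h l h1 h2

/-- sums over a prefix, grouped by the value: `∑_{l < n} t (pts l) = ∑_{z ∈ S} cnt n z · t z` -/
theorem mw_vdmc_sum_prefix (pts : Fin m → α) (n : ℕ) (S : Finset α)
    (hS : ∀ l : Fin m, l.val < n → pts l ∈ S) (t : α → ℝ) :
    ∑ l : Fin m, (if l.val < n then t (pts l) else 0)
      = ∑ z ∈ S, (mw_vdmc_cnt pts n z : ℝ) * t z := by
  have h1 : ∀ z ∈ S, (mw_vdmc_cnt pts n z : ℝ) * t z
      = ∑ l : Fin m, if l.val < n ∧ pts l = z then t z else 0 := by
    intro z _
    unfold mw_vdmc_cnt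
    rw [← Finset.sum_filter, Finset.sum_const, nsmul_eq_mul]
  rw [Finset.sum_congr rfl h1, Finset.sum_comm]
  refine Finset.sum_congr rfl fun l _ => ?_
  by_cases hl : l.val < n
  · rw [if_pos hl, Finset.sum_eq_single (pts l)]
    · rw [if_pos ⟨hl, rfl⟩]
    · intro z _ hz
      rw [if_neg]
      rintro ⟨-, h⟩
      exact hz h.symm
    · intro h
      exact absurd (hS l hl) h
  · rw [if_neg hl]
    exact (Finset.sum_eq_zero fun z _ => by rw [if_neg]; exact fun h => hl h.1).symm

end Fermat.Agent.MW
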