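/-
Project MW (S17), GLOBAL leaf [VDMC], part (b1) (helper1): JETS OF FUNCTIONS AT A PLACE.

`P` a place of `mw_F N`, `π` a uniformiser at `P` (`P.ord π = 1`), `f` regular at `P`:
* `mw_vj_rem P π f k`  : the `k`-th Taylor remainder (`f₀ = f`, `f_{k+1} = (f_k - f_k(P)) / π`);
* `mw_vj_jet P π f k`  : the `k`-th Taylor coefficient `f_k(P)`;
* `mw_vj_expand`       : `f = ∑_{k<n} c_k π^k + π^n f_n`;
* `mw_vj_rem_add`, `mw_vj_rem_const_mul`, `mw_vj_jet_add`, `mw_vj_jet_const_mul`, `mw_vj_jet_sum`: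
                         linearity;
* `mw_vj_ord_ge_iff`   : `ord_P f ≥ n ↔ c_k = 0` for all `k < n`;
* `mw_vj_jet_ord`      : the jet of index `ord_P f` is the leading coefficient `(f / π^μ)(P) ≠ 0`.
Prefix `mw_vj_`.
-/
import Fermat.Agent.MW.Core.Val

set_option autoImplicit false
set_option linter.unusedSectionVars false

noncomputable section

namespace Fermat.Agent.MW

open AlgebraicCurve ModularCurve Fermat.Agent.S24
open scoped Classical

variable {N : ℕ} [NeZero N]

/-- the `k`-th Taylor remainder of `f` at `P` with respect to `π` -/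
def mw_vj_rem (P : mw_X N) (π f : mw_F N) : ℕ → mw_F N
  | 0 => f
  | k + 1 => (mw_vj_rem P π f k -
      algebraMap mw_K (mw_F N) (mw_val P (mw_vj_rem P π f k))) / π

/-- the `k`-th Taylor coefficient of `f` at `P` with respect to `π` -/
def mw_vj_jet (P : mw_X N) (π f : mw_F N) (k : ℕ) : mw_K := mw_val P (mw_vj_rem P π f k)

@[simp] theorem mw_vj_rem_zero (P : mw_X N) (π f : mw_F N) : mw_vj_rem P π f 0 = f := rfl

theorem mw_vj_rem_succ (P : mw_X N) (π f : mw_F N) (k : ℕ) :
    mw_vj_rem P π f (k + 1) =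
      (mw_vj_rem P π f k - algebraMap mw_K (mw_F N) (mw_vj_jet P π f k)) / π := rfl

section basic

variable {P : mw_X N} {π : mw_F N} (hπ : P.ord π = 1)

include hπ

theorem mw_vj_pi_ne_zero : π ≠ 0 := by
  intro h
  rw [h, Place.ord_zero] at hπ
  exact zero_ne_one hπ

/-- a function vanishing at `P` is divisible by `π` in `O_P` -/
theorem mw_vj_div_mem {g : mw_F N} (hg : g ∈ P.toValuationSubring.nonunits) :
    g / π ∈ P.toValuationSubring := by
  have hπ0 := mw_vj_pi_ne_zero hπ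
  by_cases hg0 : g = 0
  · rw [hg0, zero_div]
    exact P.toValuationSubring.zero_mem
  · rw [mw_v_mem_iff P (div_ne_zero hg0 hπ0), div_eq_mul_inv,
      Place.ord_mul P hg0 (inv_ne_zero hπ0), Place.ord_inv, hπ]
    have := (mw_v_mem_nonunits_iff P hg0).1 hg
    omega

theorem mw_vj_rem_mem {f : mw_F N} (hf : f ∈ P.toValuationSubring) (k : ℕ) :
    mw_vj_rem P π f k ∈ P.toValuationSubring := by
  induction k with
  | zero => exact hf
  | succ k ih =>
    rw [mw_vj_rem_succ]
    exact mw_vj_div_mem hπ (mw_v_spec P ih)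

/-- **Taylor expansion** -/
theorem mw_vj_expand (f : mw_F N) (n : ℕ) :
    f = ∑ k ∈ Finset.range n, algebraMap mw_K (mw_F N) (mw_vj_jet P π f k) * π ^ k +
      π ^ n * mw_vj_rem P π f n := by
  have hπ0 := mw_vj_pi_ne_zero hπ
  induction n with
  | zero => simp
  | succ n ih =>
    rw [Finset.sum_range_succ, mw_vj_rem_succ, pow_succ, mul_assoc, mul_div_cancel₀ _ hπ0]
    calc f = ∑ k ∈ Finset.range n, algebraMap mw_K (mw_F N) (mw_vj_jet P π f k) * π ^ k +
          π ^ n * mw_vj_rem P π f n := ih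
      _ = _ := by ring

/-! ### linearity -/

theorem mw_vj_rem_add {f g : mw_F N} (hf : f ∈ P.toValuationSubring)
    (hg : g ∈ P.toValuationSubring) (k : ℕ) :
    mw_vj_rem P π (f + g) k = mw_vj_rem P π f k + mw_vj_rem P π g k := by
  induction k with
  | zero => rfl
  | succ k ih =>
    rw [mw_vj_rem_succ, mw_vj_rem_succ, mw_vj_rem_succ, mw_vj_jet, mw_vj_jet, mw_vj_jet, ih,
      mw_v_add P (mw_vj_rem_mem hπ hf k) (mw_vj_rem_mem hπ hg k), map_add]
    ring

theorem mw_vj_jet_add {f g : mw_F N} (hf : f ∈ P.toValuationSubring)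
    (hg : g ∈ P.toValuationSubring) (k : ℕ) :
    mw_vj_jet P π (f + g) k = mw_vj_jet P π f k + mw_vj_jet P π g k := by
  rw [mw_vj_jet, mw_vj_rem_add hπ hf hg,
    mw_v_add P (mw_vj_rem_mem hπ hf k) (mw_vj_rem_mem hπ hg k)]
  rfl

theorem mw_vj_rem_const_mul (c : mw_K) {f : mw_F N} (hf : f ∈ P.toValuationSubring) (k : ℕ) :
    mw_vj_rem P π (algebraMap mw_K (mw_F N) c * f) k =
      algebraMap mw_K (mw_F N) c * mw_vj_rem P π f k := by
  induction k with
  | zero => rfl
  | succ k ih =>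
    rw [mw_vj_rem_succ, mw_vj_rem_succ, mw_vj_jet, mw_vj_jet, ih,
      mw_v_const_mul P c (mw_vj_rem_mem hπ hf k), map_mul]
    ring

theorem mw_vj_jet_const_mul (c : mw_K) {f : mw_F N} (hf : f ∈ P.toValuationSubring) (k : ℕ) :
    mw_vj_jet P π (algebraMap mw_K (mw_F N) c * f) k = c * mw_vj_jet P π f k := by
  rw [mw_vj_jet, mw_vj_rem_const_mul hπ c hf, mw_v_const_mul P c (mw_vj_rem_mem hπ hf k)]
  rfl

theorem mw_vj_jet_zero_fun (k : ℕ) : mw_vj_jet P π 0 k = 0 := by
  have := mw_vj_jet_const_mul hπ 0 (P.toValuationSubring.zero_mem) k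
  rwa [map_zero, zero_mul, zero_mul] at this

theorem mw_vj_jet_sum {ι : Type} (s : Finset ι) (c : ι → mw_K) (f : ι → mw_F N)
    (hf : ∀ i ∈ s, f i ∈ P.toValuationSubring) (k : ℕ) :
    mw_vj_jet P π (∑ i ∈ s, algebraMap mw_K (mw_F N) (c i) * f i) k =
      ∑ i ∈ s, c i * mw_vj_jet P π (f i) k := by
  induction s using Finset.induction_on with
  | empty => rw [Finset.sum_empty, Finset.sum_empty, mw_vj_jet_zero_fun hπ]
  | insert a s ha ih =>
    rw [Finset.sum_insert ha, Finset.sum_insert ha,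
      mw_vj_jet_add hπ
        (P.toValuationSubring.mul_mem _ _ (mw_v_const_mem P _)
          (hf a (Finset.mem_insert_self a s)))
        (P.toValuationSubring.sum_mem fun i hi =>
          P.toValuationSubring.mul_mem _ _ (mw_v_const_mem P _)
            (hf i (Finset.mem_insert_of_mem hi))),
      mw_vj_jet_const_mul hπ _ (hf a (Finset.mem_insert_self a s)),
      ih fun i hi => hf i (Finset.mem_insert_of_mem hi)]

/-! ### orders and jets -/

/-- if the first `n` jets vanish then `f = π^n f_n` -/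
theorem mw_vj_eq_of_jets_zero (f : mw_F N) (n : ℕ) (h : ∀ k < n, mw_vj_jet P π f k = 0) :
    f = π ^ n * mw_vj_rem P π f n := by
  have := mw_vj_expand hπ f n
  rw [Finset.sum_eq_zero (fun k hk => by
    rw [h k (Finset.mem_range.1 hk), map_zero, zero_mul]), zero_add] at this
  exact this

/-- **the order at `P` in terms of jets** -/
theorem mw_vj_ord_ge_iff {f : mw_F N} (hf : f ∈ P.toValuationSubring) (hf0 : f ≠ 0) (n : ℕ) :
    (n : ℤ) ≤ P.ord f ↔ ∀ k < n, mw_vj_jet P π f k = 0 := by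
  have hπ0 := mw_vj_pi_ne_zero hπ
  constructor
  · intro hn k
    induction k using Nat.strong_induction_on with
    | _ k ih =>
      intro hk
      have hfk := mw_vj_eq_of_jets_zero hπ f k (fun j hj => ih j hj (hj.trans hk))
      have hr0 : mw_vj_rem P π f k ≠ 0 := by
        intro h0
        rw [h0, mul_zero] at hfk
        exact hf0 hfk
      have hord : P.ord f = k + P.ord (mw_vj_rem P π f k) := by
        conv_lhs => rw [hfk]
        rw [Place.ord_mul P (pow_ne_zero k hπ0) hr0, ← zpow_natCast, Place.ord_zpow, hπ, mul_one]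
      rw [mw_vj_jet, mw_v_eq_zero_iff_ord P hr0
        ((mw_v_mem_iff P hr0).1 (mw_vj_rem_mem hπ hf k))]
      have : (k : ℤ) < n := by exact_mod_cast hk
      omega
  · intro h
    have hfn := mw_vj_eq_of_jets_zero hπ f n h
    have hr0 : mw_vj_rem P π f n ≠ 0 := by
      intro h0
      rw [h0, mul_zero] at hfn
      exact hf0 hfn
    have hord : P.ord f = n + P.ord (mw_vj_rem P π f n) := by
      conv_lhs => rw [hfn]
      rw [Place.ord_mul P (pow_ne_zero n hπ0) hr0, ← zpow_natCast, Place.ord_zpow, hπ, mul_one]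
    have := (mw_v_mem_iff P hr0).1 (mw_vj_rem_mem hπ hf n)
    omega

/-- the jet of index `μ = ord_P f` is the leading coefficient `(f / π^μ)(P)` -/
theorem mw_vj_jet_ord {f : mw_F N} (hf0 : f ≠ 0) (μ : ℕ) (hμ : P.ord f = μ) :
    mw_vj_jet P π f μ = mw_val P (f / π ^ μ) ∧ mw_vj_jet P π f μ ≠ 0 := by
  have hπ0 := mw_vj_pi_ne_zero hπ
  have hf : f ∈ P.toValuationSubring := (mw_v_mem_iff P hf0).2 (by rw [hμ]; exact Int.natCast_nonneg μ)
  have hz := (mw_vj_ord_ge_iff hπ hf hf0 μ).1 hμ.ge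
  have hfμ := mw_vj_eq_of_jets_zero hπ f μ hz
  have hrem : mw_vj_rem P π f μ = f / π ^ μ := by
    rw [eq_div_iff (pow_ne_zero μ hπ0), mul_comm]
    exact hfμ.symm
  refine ⟨by rw [mw_vj_jet, hrem], ?_⟩
  have hr0 : mw_vj_rem P π f μ ≠ 0 := by
    rw [hrem]
    exact div_ne_zero hf0 (pow_ne_zero μ hπ0)
  have hord : P.ord f = μ + P.ord (mw_vj_rem P π f μ) := by
    conv_lhs => rw [hfμ]
    rw [Place.ord_mul P (pow_ne_zero μ hπ0) hr0, ← zpow_natCast, Place.ord_zpow, hπ, mul_one]
  rw [mw_vj_jet]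
  exact mw_v_ne_zero_of_ord_eq_zero P hr0 (by omega)

end basic

end Fermat.Agent.MW

end
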