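/-
Project MW (S17), GLOBAL leaf [VDMC], part (b2) (helper1): THE CONFLUENT MATRIX.

`D` a divisor, `E ≥ 0` with support disjoint from `supp D`, `u P` a unit at `P` (local
trivialisation, e.g. `y (mw_piv y P)`), `π P` a uniformiser at the MULTIPLE points of `E`.
The confluent evaluation `f ↦ (jet_k (f / u_P) at P)_{P ∈ supp E, k < E(P)}` on `L(D)` has kernel
`L(D - E)`; hence for a basis `v` of `L(D)` with `#v = deg E` columns, the confluent matrix has
nonzero determinant as soon as `l(D - E) = 0`.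

* `mw_vj_ord_ge_iff'`     : `ord_P f ≥ n ↔ jets < n vanish`, uniformiser only needed for `n ≥ 2`;
* `mw_vj_mem_L_of_mem`    : `L(D) ⊆ O_P` for `D(P) = 0`;
* `mw_vj_jets_zero_iff`   : all confluent jets of `f ∈ L(D)` vanish `↔ f ∈ L(D - E)`;
* `mw_vj_jet_comb`        : jets of a linear combination `∑ c_a v_a`;
* **`mw_vj_det_ne_zero`** : `l(D - E) = 0 ⟹ det (confluent matrix) ≠ 0`;
* `mw_vj_lcAt`            : `mw_lcAt N y cc P π μ` is the jet of index `μ` of `G_cc / y_piv`.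
Prefix `mw_vj_`.
-/
import Fermat.Agent.MW.Global.VDMC.Jets
import Fermat.Agent.MW.Global.Seams
import Fermat.Agent.JT3.Riemann.FBar

set_option autoImplicit false
set_option linter.unusedSectionVars false

noncomputable section

namespace Fermat.Agent.MW

open AlgebraicCurve ModularCurve Fermat.Agent.JT3 Fermat.Agent.S24
open scoped Classical

variable {N : ℕ} [NeZero N]

/-- the order at `P` in terms of jets; a uniformiser is only needed for `n ≥ 2` -/
theorem mw_vj_ord_ge_iff' {P : mw_X N} {π f : mw_F N} {n : ℕ} (hπ : 2 ≤ n → P.ord π = 1)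
    (hf : f ∈ P.toValuationSubring) (hf0 : f ≠ 0) :
    (n : ℤ) ≤ P.ord f ↔ ∀ k < n, mw_vj_jet P π f k = 0 := by
  rcases Nat.lt_or_ge n 2 with hn | hn
  · have h0 := (mw_v_mem_iff P hf0).1 hf
    interval_cases n
    · simp only [Nat.cast_zero, h0, Nat.not_lt_zero, false_imp_iff, implies_true]
    · have hj : mw_vj_jet P π f 0 = mw_val P f := rfl
      constructor
      · intro h k hk
        obtain rfl : k = 0 := by omega
        rw [hj, mw_v_eq_zero_iff_ord P hf0 h0]
        push_cast at h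
        omega
      · intro h
        have := h 0 (by omega)
        rw [hj, mw_v_eq_zero_iff_ord P hf0 h0] at this
        push_cast
        omega
  · exact mw_vj_ord_ge_iff (hπ hn) hf hf0 n

/-- `L(D) ⊆ O_P` when `D(P) = 0` -/
theorem mw_vj_mem_of_mem_L {D : mw_Div N} {P : mw_X N} (hDP : D P = 0) {f : mw_F N}
    (hf : f ∈ riemannRochSpace D) : f ∈ P.toValuationSubring := by
  by_cases hf0 : f = 0
  · rw [hf0]
    exact P.toValuationSubring.zero_mem
  · have := (rt_mem_L_iff hf0).1 hf P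
    rw [hDP, neg_zero] at this
    exact (mw_v_mem_iff P hf0).2 this

/-- division by a unit at `P` -/
theorem mw_vj_div_unit_mem {P : mw_X N} {u f : mw_F N} (hu : P.ord u = 0) (hu0 : u ≠ 0)
    (hf : f ∈ P.toValuationSubring) : f / u ∈ P.toValuationSubring := by
  by_cases hf0 : f = 0
  · rw [hf0, zero_div]
    exact P.toValuationSubring.zero_mem
  · rw [mw_v_mem_iff P (div_ne_zero hf0 hu0), div_eq_mul_inv,
      Place.ord_mul P hf0 (inv_ne_zero hu0), Place.ord_inv, hu]
    have := (mw_v_mem_iff P hf0).1 hf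
    omega

theorem mw_vj_ord_div_unit {P : mw_X N} {u f : mw_F N} (hu : P.ord u = 0) (hu0 : u ≠ 0)
    (hf0 : f ≠ 0) : P.ord (f / u) = P.ord f := by
  rw [div_eq_mul_inv, Place.ord_mul P hf0 (inv_ne_zero hu0), Place.ord_inv, hu]
  ring

section confluent

variable (D E : mw_Div N) (u π : mw_X N → mw_F N)

/-- all confluent jets of `f ∈ L(D)` along `E` vanish iff `f ∈ L(D - E)` -/
theorem mw_vj_jets_zero_iff (hE : 0 ≤ E) (hdisj : ∀ P ∈ E.support, D P = 0)
    (hu0 : ∀ P ∈ E.support, u P ≠ 0) (hu : ∀ P ∈ E.support, P.ord (u P) = 0)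
    (hπ : ∀ P ∈ E.support, 2 ≤ E P → P.ord (π P) = 1) {f : mw_F N}
    (hf : f ∈ riemannRochSpace D) (hf0 : f ≠ 0) :
    (∀ P ∈ E.support, ∀ k < (E P).toNat, mw_vj_jet P (π P) (f / u P) k = 0) ↔
      f ∈ riemannRochSpace (D - E) := by
  have hEnn : ∀ P : mw_X N, 0 ≤ E P := fun P => by
    have := hE P
    rwa [Finsupp.zero_apply] at this
  have key : ∀ P ∈ E.support,
      ((∀ k < (E P).toNat, mw_vj_jet P (π P) (f / u P) k = 0) ↔ E P ≤ P.ord f) := by
    intro P hP
    have hfP : f ∈ P.toValuationSubring := mw_vj_mem_of_mem_L (hdisj P hP) hf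
    have hfu := mw_vj_div_unit_mem (hu P hP) (hu0 P hP) hfP
    have hfu0 : f / u P ≠ 0 := div_ne_zero hf0 (hu0 P hP)
    rw [← mw_vj_ord_ge_iff' (n := (E P).toNat) (fun h2 => hπ P hP (by
      have := Int.toNat_of_nonneg (hEnn P)
      omega)) hfu hfu0, mw_vj_ord_div_unit (hu P hP) (hu0 P hP) hf0,
      Int.toNat_of_nonneg (hEnn P)]
  rw [rt_mem_L_iff hf0]
  have hfL := (rt_mem_L_iff hf0).1 hf
  constructor
  · intro h P
    rw [Finsupp.sub_apply]
    by_cases hP : P ∈ E.support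
    · have := (key P hP).1 (h P hP)
      rw [hdisj P hP]
      omega
    · rw [Finsupp.notMem_support_iff.1 hP, sub_zero]
      exact hfL P
  · intro h P hP
    refine (key P hP).2 ?_
    have := h P
    rw [Finsupp.sub_apply, hdisj P hP] at this
    omega

/-- jets of a linear combination -/
theorem mw_vj_jet_comb {P : mw_X N} {π₀ u₀ : mw_F N} (hπ₀ : P.ord π₀ = 1) (hu₀0 : u₀ ≠ 0)
    (hu₀ : P.ord u₀ = 0) {d : ℕ} (v : Fin d → mw_F N) (hv : ∀ a, v a ∈ P.toValuationSubring)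
    (c : Fin d → mw_K) (k : ℕ) :
    mw_vj_jet P π₀ ((∑ a, algebraMap mw_K (mw_F N) (c a) * v a) / u₀) k =
      ∑ a, c a * mw_vj_jet P π₀ (v a / u₀) k := by
  rw [Finset.sum_div]
  have : ∀ a ∈ (Finset.univ : Finset (Fin d)),
      algebraMap mw_K (mw_F N) (c a) * v a / u₀ = algebraMap mw_K (mw_F N) (c a) * (v a / u₀) :=
    fun a _ => mul_div_assoc _ _ _
  rw [Finset.sum_congr rfl this]
  exact mw_vj_jet_sum hπ₀ Finset.univ c (fun a => v a / u₀)
    (fun a _ => mw_vj_div_unit_mem hu₀ hu₀0 (hv a)) k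

/-- the value (`0`-th jet) of a linear combination: no uniformiser needed -/
theorem mw_vj_jet_comb_zero {P : mw_X N} {π₀ u₀ : mw_F N} (hu₀0 : u₀ ≠ 0)
    (hu₀ : P.ord u₀ = 0) {d : ℕ} (v : Fin d → mw_F N) (hv : ∀ a, v a ∈ P.toValuationSubring)
    (c : Fin d → mw_K) :
    mw_vj_jet P π₀ ((∑ a, algebraMap mw_K (mw_F N) (c a) * v a) / u₀) 0 =
      ∑ a, c a * mw_vj_jet P π₀ (v a / u₀) 0 := by
  simp only [mw_vj_jet, mw_vj_rem_zero]
  rw [Finset.sum_div]
  have : ∀ a ∈ (Finset.univ : Finset (Fin d)),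
      algebraMap mw_K (mw_F N) (c a) * v a / u₀ = algebraMap mw_K (mw_F N) (c a) * (v a / u₀) :=
    fun a _ => mul_div_assoc _ _ _
  rw [Finset.sum_congr rfl this, mw_v_sum P _ _ (fun a _ =>
    P.toValuationSubring.mul_mem _ _ (mw_v_const_mem P _)
      (mw_vj_div_unit_mem hu₀ hu₀0 (hv a)))]
  exact Finset.sum_congr rfl fun a _ =>
    mw_v_const_mul P _ (mw_vj_div_unit_mem hu₀ hu₀0 (hv a))

/-- **the confluent determinant does not vanish** when `E` imposes independent conditions on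
`L(D)`: `l(D - E) = 0`.  Columns are indexed through `e` by the pairs `(P, k)`, `P ∈ supp E`,
`k < E(P)`. -/
theorem mw_vj_det_ne_zero (hE : 0 ≤ E) (hdisj : ∀ P ∈ E.support, D P = 0)
    (hu0 : ∀ P ∈ E.support, u P ≠ 0) (hu : ∀ P ∈ E.support, P.ord (u P) = 0)
    (hπ : ∀ P ∈ E.support, 2 ≤ E P → P.ord (π P) = 1) {d : ℕ} (v : Fin d → mw_F N)
    (hv : LinearIndependent mw_K v) (hvD : ∀ a, v a ∈ riemannRochSpace D)
    (e : Fin d → (Σ P : ↥E.support, Fin (E P).toNat)) (he : Function.Surjective e)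
    (hl : mw_l N (D - E) = 0) :
    (Matrix.of fun (a j : Fin d) =>
      mw_vj_jet (e j).1 (π (e j).1) (v a / u (e j).1) (e j).2).det ≠ 0 := by
  intro hdet
  obtain ⟨c, hc0, hc⟩ := (Matrix.exists_vecMul_eq_zero_iff).2 hdet
  set f : mw_F N := ∑ a, algebraMap mw_K (mw_F N) (c a) * v a with hf
  have hfD : f ∈ riemannRochSpace D := by
    rw [hf]
    refine Submodule.sum_mem _ fun a _ => ?_
    rw [← Algebra.smul_def]
    exact Submodule.smul_mem _ _ (hvD a)
  have hf0 : f ≠ 0 := by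
    intro h0
    apply hc0
    have := Fintype.linearIndependent_iff.mp hv c (by
      rw [hf] at h0
      simpa [Algebra.smul_def] using h0)
    exact funext this
  have hall : ∀ j : Fin d,
      mw_vj_jet (e j).1 (π (e j).1) (f / u (e j).1) ((e j).2 : ℕ) = 0 := by
    intro j
    have hcj := congrFun hc j
    rw [Matrix.vecMul, dotProduct] at hcj
    simp only [Matrix.of_apply, Pi.zero_apply] at hcj
    have hP : ((e j).1 : mw_X N) ∈ E.support := (e j).1.2
    have hk : ((e j).2 : ℕ) < (E ((e j).1 : mw_X N)).toNat := (e j).2.2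
    have hvP : ∀ a, v a ∈ ((e j).1 : mw_X N).toValuationSubring := fun a =>
      mw_vj_mem_of_mem_L (hdisj _ hP) (hvD a)
    by_cases hk0 : ((e j).2 : ℕ) = 0
    · rw [hk0] at hcj ⊢
      rw [hf, mw_vj_jet_comb_zero (hu0 _ hP) (hu _ hP) v hvP c]
      exact hcj
    · have h2 : 2 ≤ E ((e j).1 : mw_X N) := by omega
      rw [hf, mw_vj_jet_comb (hπ _ hP h2) (hu0 _ hP) (hu _ hP) v hvP c]
      exact hcj
  have hjets : ∀ P ∈ E.support, ∀ k < (E P).toNat, mw_vj_jet P (π P) (f / u P) k = 0 := by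
    intro P hP k hk
    obtain ⟨j, hj⟩ := he ⟨⟨P, hP⟩, ⟨k, hk⟩⟩
    have := hall j
    rw [hj] at this
    exact this
  have hmem := (mw_vj_jets_zero_iff D E u π hE hdisj hu0 hu hπ hfD hf0).1 hjets
  have hfin : Module.Finite mw_K ↥(riemannRochSpace (D - E)) := rt_L_finite_fbar N (D - E)
  have hbot : ∀ x : ↥(riemannRochSpace (D - E)), x = 0 := by
    have := (Module.finrank_eq_zero_iff_of_free (R := mw_K)
      (M := ↥(riemannRochSpace (D - E)))).1 hl
    intro x
    exact Subsingleton.elim _ _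
  exact hf0 (congrArg Subtype.val (hbot ⟨f, hmem⟩))

end confluent

/-- `mw_lcAt` is the jet of index `μ = ord_P (G_cc / y_piv)` -/
theorem mw_vj_lcAt {s : ℕ} (y : Fin (s + 1) → mw_F N) (cc : Fin (s + 1) → mw_K) (P : mw_X N)
    (π : mw_F N) (hπ : P.ord π = 1) (μ : ℕ) (hsec : mw_sec y cc / y (mw_piv y P) ≠ 0)
    (hμ : mw_zeroMult y cc P = (μ : ℤ)) :
    mw_lcAt N y cc P π μ = mw_vj_jet P π (mw_sec y cc / y (mw_piv y P)) μ ∧
      mw_lcAt N y cc P π μ ≠ 0 := by
  have := mw_vj_jet_ord hπ hsec μ hμ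
  rw [mw_lcAt]
  exact ⟨this.1.symm, this.1 ▸ this.2⟩

end Fermat.Agent.MW

end
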