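/-
Project MW (S17), leaf [VDMC] (helper11): jets (helper1's `mw_vj_jet`, `VDMC/Jets.lean`) with the
WEAK hypotheses on the uniformiser needed by the seam (`π P` is a uniformiser only at the multiple
points of `E`): linearity of the `k`-th jet needs a uniformiser only for `k ≥ 1`, the order
statements only for orders `≥ 2` resp. `≥ 1`.  Prefix `mw_vdmc_`.
-/
import Fermat.Agent.MW.Global.VDMC.Confluent

set_option autoImplicit false
set_option linter.unusedSectionVars false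

noncomputable section

namespace Fermat.Agent.MW

open AlgebraicCurve ModularCurve Fermat.Agent.S24
open scoped Classical

variable {N : ℕ} [NeZero N]

theorem mw_vdmc_jet_zero_eq (P : mw_X N) (π f : mw_F N) : mw_vj_jet P π f 0 = mw_val P f := rfl

/-- linearity of the `k`-th jet; a uniformiser is only needed for `k ≥ 1` -/
theorem mw_vdmc_jet_sum {P : mw_X N} {π : mw_F N} {k : ℕ} (hπ : 1 ≤ k → P.ord π = 1) {ι : Type}
    (s : Finset ι) (c : ι → mw_K) (f : ι → mw_F N) (hf : ∀ i ∈ s, f i ∈ P.toValuationSubring) :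
    mw_vj_jet P π (∑ i ∈ s, algebraMap mw_K (mw_F N) (c i) * f i) k =
      ∑ i ∈ s, c i * mw_vj_jet P π (f i) k := by
  rcases Nat.eq_zero_or_pos k with rfl | hk
  · simp only [mw_vdmc_jet_zero_eq]
    rw [mw_v_sum P s _ fun i hi =>
      P.toValuationSubring.mul_mem _ _ (mw_v_const_mem P _) (hf i hi)]
    exact Finset.sum_congr rfl fun i hi => mw_v_const_mul P _ (hf i hi)
  · exact mw_vj_jet_sum (hπ hk) s c f hf k

theorem mw_vdmc_jet_zero_fun (P : mw_X N) (π₀ : mw_F N) (k : ℕ) (hπ : 1 ≤ k → P.ord π₀ = 1) :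
    mw_vj_jet P π₀ 0 k = 0 := by
  have := mw_vdmc_jet_sum (P := P) (π := π₀) (k := k) hπ (∅ : Finset (Fin 0)) (fun _ => 0)
    (fun _ => 0) (fun i hi => absurd hi (Finset.notMem_empty i))
  simpa using this

/-- vanishing jets below `μ` give `ord ≥ μ`; a uniformiser is only needed for `μ ≥ 2` -/
theorem mw_vdmc_le_ord_of_jets_zero {P : mw_X N} {π : mw_F N} {μ : ℕ}
    (hπ : 2 ≤ μ → P.ord π = 1) {f : mw_F N} (hf : f ∈ P.toValuationSubring) (hf0 : f ≠ 0)
    (h : ∀ i < μ, mw_vj_jet P π f i = 0) : (μ : ℤ) ≤ P.ord f :=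
  (mw_vj_ord_ge_iff' hπ hf hf0).2 h

/-- vanishing jets below `μ` and a nonvanishing `μ`-th jet give `ord = μ` -/
theorem mw_vdmc_ord_eq_of_jets {P : mw_X N} {π : mw_F N} {μ : ℕ}
    (hπ : 1 ≤ μ → P.ord π = 1) {f : mw_F N} (hf : f ∈ P.toValuationSubring) (hf0 : f ≠ 0)
    (h : ∀ i < μ, mw_vj_jet P π f i = 0) (hμ : mw_vj_jet P π f μ ≠ 0) :
    P.ord f = μ := by
  have h1 : (μ : ℤ) ≤ P.ord f :=
    (mw_vj_ord_ge_iff' (fun h2 => hπ (by omega)) hf hf0).2 h
  have h2 : ¬ ((μ + 1 : ℕ) : ℤ) ≤ P.ord f := by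
    intro hle
    have := (mw_vj_ord_ge_iff' (n := μ + 1) (fun h2 => hπ (by omega)) hf hf0).1 hle μ
      (Nat.lt_succ_self μ)
    exact hμ this
  push_cast at h2
  omega

/-- if the jets below `μ` vanish, the `μ`-th remainder is `f / π^μ` (no hypothesis on `π`) -/
theorem mw_vdmc_rem_of_jets_zero (P : mw_X N) (π f : mw_F N) (μ : ℕ)
    (h : ∀ i < μ, mw_vj_jet P π f i = 0) : mw_vj_rem P π f μ = f / π ^ μ := by
  induction μ with
  | zero => simp
  | succ μ ih =>
    rw [mw_vj_rem_succ, h μ (Nat.lt_succ_self μ), map_zero, sub_zero,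
      ih fun i hi => h i (Nat.lt_succ_of_lt hi), div_div, pow_succ]

theorem mw_vdmc_jet_of_jets_zero (P : mw_X N) (π f : mw_F N) (μ : ℕ)
    (h : ∀ i < μ, mw_vj_jet P π f i = 0) :
    mw_vj_jet P π f μ = mw_val P (f / π ^ μ) := by
  rw [mw_vj_jet, mw_vdmc_rem_of_jets_zero P π f μ h]

end Fermat.Agent.MW
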