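/-
Project MW (S17), leaf [VDMC] (helper11), part (b2): THE GEOMETRIC STEP.  For the jet matrix `J` of
a basis `vb` of `L(a∞ - 𝔅)` at the points `pts` (with repetitions: higher jets), the cofactor
combination `G = ∑ λ_i vb (ρ i)` of the expansion of `D_{n+1}(ρ)` along its last column is a section
of the complete system `y` vanishing at the earlier points (to the prefix multiplicity) and along
`𝔅`, of exact order `j_n` at the `n`-th point with leading coefficient `D_{n+1}(ρ)`.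
Prefix `mw_vdmc_`.
-/
import Fermat.Agent.MW.Global.Seams
import Fermat.Agent.MW.Core.SYL.Curve
import Fermat.Agent.MW.Global.VDMC.Det
import Fermat.Agent.MW.Global.VDMC.JetsW
import Fermat.Agent.MW.Global.VDMC.Count

set_option autoImplicit false
set_option linter.unusedSectionVars false

noncomputable section

namespace Fermat.Agent.MW

open AlgebraicCurve ModularCurve Fermat.Agent.S24 Fermat.Agent.JT3 Fermat.Agent.FF
open scoped Classical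

variable {N : ℕ} [NeZero N]

section Step

variable {s : ℕ} (y : Fin (s + 1) → mw_F N) (Pinf : mw_X N) (a : ℕ) (𝔅 : mw_Div N)
  {m : ℕ} (vb : Fin m → mw_F N) (Mx : Fin m → Fin (s + 1) → mw_K)
  (pts : Fin m → mw_X N) (π : mw_X N → mw_F N)

/-- the jet matrix: rows = the basis `vb`, columns = the points `pts` with their jet orders -/
def mw_vdmc_J : Fin m → Fin m → mw_K := fun i k =>
  mw_vj_jet (pts k) (π (pts k)) (vb i / y (mw_piv y (pts k))) (mw_vdmc_jn pts k)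

/-- the coefficient vector (in the system `y`) of the cofactor section attached to `(n, ρ)` -/
def mw_vdmc_cc (n : ℕ) (hn : n + 1 ≤ m) (ρ : Fin (n + 1) → Fin m) : Fin (s + 1) → mw_K :=
  fun b => ∑ i, mw_vdmc_cof (mw_vdmc_J y vb pts π) n hn ρ i * Mx (ρ i) b

/-- the geometric hypotheses -/
structure mw_vdmc_Geom : Prop where
  hyli : LinearIndependent mw_K y
  hym : ∀ i, y i ∈ riemannRochSpace (Finsupp.single Pinf (a : ℤ))
  hypiv : ∀ w : mw_X N, w.ord (y (mw_piv y w)) = -(Finsupp.single Pinf (a : ℤ) : mw_Div N) w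
  hB : 0 ≤ 𝔅
  hvbm : ∀ i, vb i ∈ riemannRochSpace (Finsupp.single Pinf (a : ℤ) - 𝔅)
  hvb : ∀ i, vb i = mw_sec y (Mx i)
  hpB : ∀ k, 𝔅 (pts k) = 0
  hπ : ∀ k, 2 ≤ mw_vdmc_cnt pts m (pts k) → (pts k).ord (π (pts k)) = 1

variable {y Pinf a 𝔅 vb Mx pts π}

theorem mw_vdmc_quot_mem (G : mw_vdmc_Geom y Pinf a 𝔅 vb Mx pts π) (z : mw_X N) {f : mw_F N}
    (hf : f ∈ riemannRochSpace (Finsupp.single Pinf (a : ℤ) - 𝔅)) :
    f / y (mw_piv y z) ∈ z.toValuationSubring := by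
  have hy0 : ∃ b, y b ≠ 0 := mw_v_exists_ne_zero G.hyli
  have hp0 := (mw_v_piv_spec y hy0 z).1
  rcases eq_or_ne f 0 with rfl | hf0
  · rw [zero_div]; exact zero_mem _
  rw [mw_v_mem_iff z (div_ne_zero hf0 hp0), div_eq_mul_inv, z.ord_mul hf0 (inv_ne_zero hp0),
    z.ord_inv, G.hypiv z]
  have h1 := (rt_mem_L_iff hf0).mp hf z
  rw [Finsupp.sub_apply] at h1
  have h2 := Finsupp.le_def.mp G.hB z
  rw [Finsupp.zero_apply] at h2
  omega

theorem mw_vdmc_sec_cc (G : mw_vdmc_Geom y Pinf a 𝔅 vb Mx pts π) (n : ℕ) (hn : n + 1 ≤ m)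
    (ρ : Fin (n + 1) → Fin m) :
    mw_sec y (mw_vdmc_cc y vb Mx pts π n hn ρ)
      = ∑ i, algebraMap mw_K (mw_F N) (mw_vdmc_cof (mw_vdmc_J y vb pts π) n hn ρ i) * vb (ρ i) := by
  unfold mw_sec mw_vdmc_cc
  simp only [map_sum, map_mul, Finset.sum_mul]
  rw [Finset.sum_comm]
  refine Finset.sum_congr rfl fun i _ => ?_
  rw [G.hvb (ρ i), mw_sec, Finset.mul_sum]
  exact Finset.sum_congr rfl fun b _ => by ring

theorem mw_vdmc_sec_cc_mem (G : mw_vdmc_Geom y Pinf a 𝔅 vb Mx pts π) (n : ℕ) (hn : n + 1 ≤ m)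
    (ρ : Fin (n + 1) → Fin m) :
    mw_sec y (mw_vdmc_cc y vb Mx pts π n hn ρ)
      ∈ riemannRochSpace (Finsupp.single Pinf (a : ℤ) - 𝔅) := by
  rw [mw_vdmc_sec_cc G]
  refine Submodule.sum_mem _ fun i _ => ?_
  rw [← Algebra.smul_def]
  exact Submodule.smul_mem _ _ (G.hvbm _)

/-- the jets of the cofactor section are the cofactor combinations of the jets -/
theorem mw_vdmc_jet_sec (G : mw_vdmc_Geom y Pinf a 𝔅 vb Mx pts π) (n : ℕ) (hn : n + 1 ≤ m)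
    (ρ : Fin (n + 1) → Fin m) (z : mw_X N) (j : ℕ) (hπ : 1 ≤ j → z.ord (π z) = 1) :
    mw_vj_jet z (π z) (mw_sec y (mw_vdmc_cc y vb Mx pts π n hn ρ) / y (mw_piv y z)) j
      = ∑ i, mw_vdmc_cof (mw_vdmc_J y vb pts π) n hn ρ i *
          mw_vj_jet z (π z) (vb (ρ i) / y (mw_piv y z)) j := by
  rw [mw_vdmc_sec_cc G, Finset.sum_div]
  rw [Finset.sum_congr rfl fun i _ => mul_div_assoc _ _ _]
  exact mw_vdmc_jet_sum hπ Finset.univ _ _ fun i _ => mw_vdmc_quot_mem G z (G.hvbm _)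

theorem mw_vdmc_hπ_of_jn (G : mw_vdmc_Geom y Pinf a 𝔅 vb Mx pts π) (k : Fin m)
    (h : 1 ≤ mw_vdmc_jn pts k) : (pts k).ord (π (pts k)) = 1 := by
  apply G.hπ k
  have := mw_vdmc_jn_lt_cnt pts k
  omega

/-- the jets at the earlier columns vanish -/
theorem mw_vdmc_jet_alien (G : mw_vdmc_Geom y Pinf a 𝔅 vb Mx pts π) (n : ℕ) (hn : n + 1 ≤ m)
    (ρ : Fin (n + 1) → Fin m) (l : Fin m) (hl : l.val < n) :
    mw_vj_jet (pts l) (π (pts l))
      (mw_sec y (mw_vdmc_cc y vb Mx pts π n hn ρ) / y (mw_piv y (pts l)))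
      (mw_vdmc_jn pts l) = 0 := by
  rw [mw_vdmc_jet_sec G n hn ρ (pts l) _ (mw_vdmc_hπ_of_jn G l)]
  have := mw_vdmc_D_alien (mw_vdmc_J y vb pts π) n hn ρ ⟨l.val, hl⟩
  have e : Fin.castLE (Nat.le_of_succ_le hn) ⟨l.val, hl⟩ = l := Fin.ext rfl
  rw [e] at this
  exact this

/-- the jet at the last column is the determinant -/
theorem mw_vdmc_jet_last (G : mw_vdmc_Geom y Pinf a 𝔅 vb Mx pts π) (n : ℕ) (hn : n + 1 ≤ m)
    (ρ : Fin (n + 1) → Fin m) :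
    mw_vj_jet (pts ⟨n, hn⟩) (π (pts ⟨n, hn⟩))
      (mw_sec y (mw_vdmc_cc y vb Mx pts π n hn ρ) / y (mw_piv y (pts ⟨n, hn⟩)))
      (mw_vdmc_jn pts ⟨n, hn⟩)
      = mw_vdmc_D (mw_vdmc_J y vb pts π) (n + 1) hn ρ := by
  rw [mw_vdmc_jet_sec G n hn ρ (pts ⟨n, hn⟩) _ (mw_vdmc_hπ_of_jn G ⟨n, hn⟩), mw_vdmc_D_succ]
  rfl

/-- all jets below the prefix multiplicity vanish -/
theorem mw_vdmc_jets_zero (G : mw_vdmc_Geom y Pinf a 𝔅 vb Mx pts π) (n : ℕ) (hn : n + 1 ≤ m)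
    (ρ : Fin (n + 1) → Fin m) (z : mw_X N) (j : ℕ) (hj : j < mw_vdmc_cnt pts n z) :
    mw_vj_jet z (π z)
      (mw_sec y (mw_vdmc_cc y vb Mx pts π n hn ρ) / y (mw_piv y z)) j = 0 := by
  obtain ⟨l, hl, hlz, hlj⟩ := mw_vdmc_exists_of_lt_cnt pts z n (by omega) j hj
  have := mw_vdmc_jet_alien G n hn ρ l hl
  rw [hlz, hlj] at this
  exact this

theorem mw_vdmc_cc_ne_zero (G : mw_vdmc_Geom y Pinf a 𝔅 vb Mx pts π) (n : ℕ) (hn : n + 1 ≤ m)
    (ρ : Fin (n + 1) → Fin m) (hD : mw_vdmc_D (mw_vdmc_J y vb pts π) (n + 1) hn ρ ≠ 0) :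
    mw_vdmc_cc y vb Mx pts π n hn ρ ≠ 0 := by
  intro h0
  apply hD
  rw [← mw_vdmc_jet_last G n hn ρ, h0]
  have : mw_sec y (0 : Fin (s + 1) → mw_K) = 0 := by simp [mw_sec]
  rw [this, zero_div]
  exact mw_vdmc_jet_zero_fun _ _ _ (mw_vdmc_hπ_of_jn G ⟨n, hn⟩)

/-- **the geometric step** -/
theorem mw_vdmc_step (G : mw_vdmc_Geom y Pinf a 𝔅 vb Mx pts π) (n : ℕ) (hn : n + 1 ≤ m)
    (ρ : Fin (n + 1) → Fin m) (hD : mw_vdmc_D (mw_vdmc_J y vb pts π) (n + 1) hn ρ ≠ 0) :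
    mw_vdmc_cc y vb Mx pts π n hn ρ ≠ 0 ∧
    mw_zeroMult y (mw_vdmc_cc y vb Mx pts π n hn ρ) (pts ⟨n, hn⟩)
      = (mw_vdmc_jn pts ⟨n, hn⟩ : ℤ) ∧
    mw_lcAt N y (mw_vdmc_cc y vb Mx pts π n hn ρ) (pts ⟨n, hn⟩) (π (pts ⟨n, hn⟩))
        (mw_vdmc_jn pts ⟨n, hn⟩)
      = mw_vdmc_D (mw_vdmc_J y vb pts π) (n + 1) hn ρ ∧
    (∀ z : mw_X N, 𝔅 z + (mw_vdmc_cnt pts n z : ℤ)
      ≤ mw_zeroMult y (mw_vdmc_cc y vb Mx pts π n hn ρ) z) ∧
    ∃ Z : mw_Div N, (∀ z, Z z = mw_zeroMult y (mw_vdmc_cc y vb Mx pts π n hn ρ) z) ∧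
      Divisor.degree Z = (a : ℤ) := by
  have hxN := rt_isSepGen_jBar N
  have hy0 : ∃ b, y b ≠ 0 := mw_v_exists_ne_zero G.hyli
  have hcc := mw_vdmc_cc_ne_zero G n hn ρ hD
  set cc := mw_vdmc_cc y vb Mx pts π n hn ρ with hccdef
  have hG0 : mw_sec y cc ≠ 0 := mw_v_sec_ne_zero G.hyli hcc
  have hgmem : ∀ z : mw_X N, mw_sec y cc / y (mw_piv y z) ∈ z.toValuationSubring := fun z =>
    mw_v_sec_div_mem y hy0 z cc
  have hg0 : ∀ z : mw_X N, mw_sec y cc / y (mw_piv y z) ≠ 0 := fun z =>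
    div_ne_zero hG0 (mw_v_piv_spec y hy0 z).1
  set P := pts ⟨n, hn⟩ with hP
  set μ := mw_vdmc_jn pts ⟨n, hn⟩ with hμ
  have hμcnt : μ = mw_vdmc_cnt pts n P := rfl
  have hlast : mw_vj_jet P (π P) (mw_sec y cc / y (mw_piv y P)) μ
      = mw_vdmc_D (mw_vdmc_J y vb pts π) (n + 1) hn ρ := mw_vdmc_jet_last G n hn ρ
  have hzero : ∀ i < μ, mw_vj_jet P (π P) (mw_sec y cc / y (mw_piv y P)) i = 0 := fun i hi =>
    mw_vdmc_jets_zero G n hn ρ P i (by rw [← hμcnt]; exact hi)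
  have hπP : 1 ≤ μ → P.ord (π P) = 1 := mw_vdmc_hπ_of_jn G ⟨n, hn⟩
  refine ⟨hcc, ?_, ?_, ?_, ?_⟩
  · exact mw_vdmc_ord_eq_of_jets hπP (hgmem P) (hg0 P) hzero (by rw [hlast]; exact hD)
  · rw [← hlast, mw_vdmc_jet_of_jets_zero P (π P) _ μ hzero]
    rfl
  · intro z
    have hzm : mw_zeroMult y cc z = z.ord (mw_sec y cc) + (Finsupp.single Pinf (a : ℤ) : mw_Div N) z :=
      mw_syl_zeroMult hy0 (G.hypiv z) cc hG0
    rcases Nat.eq_zero_or_pos (mw_vdmc_cnt pts n z) with h0 | hpos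
    · rw [h0, hzm]
      have h1 := (rt_mem_L_iff hG0).mp (mw_vdmc_sec_cc_mem G n hn ρ) z
      rw [Finsupp.sub_apply] at h1
      push_cast
      omega
    · obtain ⟨l, hl, hlz, -⟩ := mw_vdmc_exists_of_lt_cnt pts z n (by omega) 0 hpos
      have hBz : 𝔅 z = 0 := by rw [← hlz]; exact G.hpB l
      rw [hBz, zero_add]
      refine mw_vdmc_le_ord_of_jets_zero ?_ (hgmem z) (hg0 z) fun i hi =>
        mw_vdmc_jets_zero G n hn ρ z i hi
      intro h2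
      have h3 := mw_vdmc_cnt_mono pts (show n ≤ m by omega) z
      have := G.hπ l (by rw [hlz]; omega)
      rwa [hlz] at this
  · refine ⟨rt_div hxN (mw_sec y cc) + Finsupp.single Pinf (a : ℤ), fun z => ?_, ?_⟩
    · rw [Finsupp.add_apply, rt_div_apply]
      exact (mw_syl_zeroMult hy0 (G.hypiv z) cc hG0).symm
    · rw [map_add, rt_degree_div, rt_degree_single hxN, zero_add]

end Step

end Fermat.Agent.MW
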