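/-
Project MW (S17), leaf [VDMC] (helper11), part (c2): THE LOCAL STEP AND THE LOCAL INDUCTION.
At a place `w` of a number field `K' ≤ Q̄` containing all the data, the upper half of `[KLμ]` for the
cofactor section of `D_{n+1}(ρ)` gives
`log |D_{n+1}(ρ)|_w ≤ log |D_n(ρ ∘ succAbove i)|_w + T_w(n) + log ‖Mx‖_w + bnd + log C₁ + a log C₂`
for some `i` with `D_n(ρ ∘ succAbove i) ≠ 0`; by induction
`log |D_m(id)|_w ≤ ∑_k (T_w(k) + log ‖Mx‖_w + bnd + log C₁ + a log C₂)`.  Prefix `mw_vdmc_`.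
-/
import Fermat.Agent.MW.Global.VDMC.Setup
import Fermat.Agent.MW.Global.VDMC.LocalAux

set_option autoImplicit false
set_option linter.unusedSectionVars false

noncomputable section

namespace Fermat.Agent.MW

open AlgebraicCurve ModularCurve Fermat.Agent.S24 Fermat.Agent.JT3 Fermat.Agent.FF
open scoped Classical

variable {N : ℕ} [NeZero N]

/-! ### an abstract bound for sums over the zeros of a section -/

theorem mw_vdmc_sum_bound {α : Type*} (S : Finset α) (P : α) (Z m' : α → ℤ) (ld : α → ℝ)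
    (c : ℝ) (a : ℕ) (hc : 0 ≤ c) (hm0 : ∀ z, 0 ≤ m' z) (hmZ : ∀ z, m' z ≤ Z z)
    (hld : ∀ z ∈ S, z ≠ P → m' z < Z z → ld z ≤ c) (hsum : ∑ z ∈ S, Z z = (a : ℤ)) :
    ∑ z ∈ S, (if z = P then (0 : ℝ) else (Z z : ℝ) * ld z)
      ≤ ∑ z ∈ S, (if z = P then (0 : ℝ) else (m' z : ℝ) * ld z) + a * c := by
  have hterm : ∀ z ∈ S, (if z = P then (0 : ℝ) else (Z z : ℝ) * ld z)
      ≤ (if z = P then (0 : ℝ) else (m' z : ℝ) * ld z) + ((Z z : ℝ) - (m' z : ℝ)) * c := by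
    intro z hz
    have hnn : (0 : ℝ) ≤ (Z z : ℝ) - (m' z : ℝ) := by
      have := hmZ z
      have : (m' z : ℝ) ≤ (Z z : ℝ) := by exact_mod_cast this
      linarith
    by_cases hzP : z = P
    · rw [if_pos hzP, if_pos hzP, zero_add]
      exact mul_nonneg hnn hc
    · rw [if_neg hzP, if_neg hzP]
      rcases eq_or_lt_of_le (hmZ z) with heq | hlt
      · rw [heq]; simp
      · have := hld z hz hzP hlt
        nlinarith
  refine (Finset.sum_le_sum hterm).trans ?_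
  rw [Finset.sum_add_distrib]
  refine add_le_add le_rfl ?_
  rw [← Finset.sum_mul]
  refine mul_le_mul_of_nonneg_right ?_ hc
  have h1 : ∑ z ∈ S, ((Z z : ℝ) - (m' z : ℝ)) ≤ ∑ z ∈ S, (Z z : ℝ) :=
    Finset.sum_le_sum fun z _ => by
      have : (0 : ℝ) ≤ (m' z : ℝ) := by exact_mod_cast hm0 z
      linarith
  refine h1.trans (le_of_eq ?_)
  have := congrArg (fun t : ℤ => (t : ℝ)) hsum
  simpa using this

section Local

variable {r s : ℕ} (x : Fin (r + 1) → mw_F N) (y : Fin (s + 1) → mw_F N) (Pinf : mw_X N) (a : ℕ)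
  (𝔅 : mw_Div N) {m : ℕ} (vb : Fin m → mw_F N) (Mx : Fin m → Fin (s + 1) → mw_K)
  (pts : Fin m → mw_X N) (π : mw_X N → mw_F N)
  (K' : IntermediateField ℚ mw_K) (w : AbsoluteValue ↥K' ℝ)

/-- the local term at the `k`-th point -/
def mw_vdmc_T (k : Fin m) : ℝ :=
  Real.log (mw_wnorm K' w (mw_vec y (pts k)))
    + (mw_vdmc_jn pts k : ℝ) * Real.log (mw_kappa N K' w x (pts k) (π (pts k)))
    + (∑ l : Fin m, if l.val < k.val ∧ pts l ≠ pts k then
        Real.log (mw_delta K' w (mw_vec x (pts k)) (mw_vec x (pts l))) else 0)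
    + 𝔅.sum fun z n => (n : ℝ) * Real.log (mw_delta K' w (mw_vec x (pts k)) (mw_vec x z))

/-- the conclusion of `[KLμ]` at the place `w` with the error `bnd` -/
def mw_vdmc_KLAt (bnd : ℝ) : Prop :=
  ∀ (cc : Fin (s + 1) → mw_K) (P : mw_X N) (π₀ : mw_F N) (μ : ℕ), cc ≠ 0 →
    mw_zeroMult y cc P = (μ : ℤ) → (1 ≤ μ → P.ord π₀ = 1) →
    (∀ b, cc b ∈ K') → (∀ b, mw_vec x P b ∈ K') → (∀ b, mw_vec y P b ∈ K') →
    (∀ z : mw_X N, mw_zeroMult y cc z ≠ 0 → ∀ b, mw_vec x z b ∈ K') →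
    (1 ≤ μ → ∀ b, mw_tanAt N x P π₀ b ∈ K') → mw_lcAt N y cc P π₀ μ ∈ K' →
    |Real.log (mw_wabs K' w (mw_lcAt N y cc P π₀ μ) /
          (mw_wnorm K' w cc * mw_wnorm K' w (mw_vec y P)))
      - ((μ : ℝ) * Real.log (mw_kappa N K' w x P π₀)
          + ∑ᶠ z : mw_X N, if z = P then (0 : ℝ) else
              (mw_zeroMult y cc z : ℝ) *
                Real.log (mw_delta K' w (mw_vec x P) (mw_vec x z)))| ≤ bnd

/-- all the data are rational over `K'` -/
structure mw_vdmc_Rat : Prop where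
  hMx : ∀ i b, Mx i b ∈ K'
  hJ : ∀ i k, mw_vdmc_J y vb pts π i k ∈ K'
  hxP : ∀ k b, mw_vec x (pts k) b ∈ K'
  hyP : ∀ k b, mw_vec y (pts k) b ∈ K'
  hZ : ∀ (n : ℕ) (hn : n + 1 ≤ m) (ρ : Fin (n + 1) → Fin m),
    mw_vdmc_D (mw_vdmc_J y vb pts π) (n + 1) hn ρ ≠ 0 →
    ∀ z : mw_X N, mw_zeroMult y (mw_vdmc_cc y vb Mx pts π n hn ρ) z ≠ 0 →
      ∀ b, mw_vec x z b ∈ K'
  htan : ∀ k, 1 ≤ mw_vdmc_jn pts k → ∀ b, mw_tanAt N x (pts k) (π (pts k)) b ∈ K'

variable {x y Pinf a 𝔅 vb Mx pts π K' w}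

/-- **the local step** -/
theorem mw_vdmc_local_step (hx0 : ∃ b, x b ≠ 0) (G : mw_vdmc_Geom y Pinf a 𝔅 vb Mx pts π)
    (R : mw_vdmc_Rat x y vb Mx pts π K') {bnd C₁ C₂ : ℝ} (hKL : mw_vdmc_KLAt x y K' w bnd)
    (h1 : 1 ≤ C₁) (h2 : 1 ≤ C₂) (hC₁ : mw_vdmc_SumBd K' w m C₁)
    (hC₂ : mw_vdmc_WedgeBd K' w r C₂) (n : ℕ) (hn : n + 1 ≤ m) (ρ : Fin (n + 1) → Fin m)
    (hD : mw_vdmc_D (mw_vdmc_J y vb pts π) (n + 1) hn ρ ≠ 0) :
    ∃ i : Fin (n + 1),
      mw_vdmc_D (mw_vdmc_J y vb pts π) n (Nat.le_of_succ_le hn) (ρ ∘ i.succAbove) ≠ 0 ∧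
      Real.log (mw_wabs K' w (mw_vdmc_D (mw_vdmc_J y vb pts π) (n + 1) hn ρ)) ≤
        Real.log (mw_wabs K' w
            (mw_vdmc_D (mw_vdmc_J y vb pts π) n (Nat.le_of_succ_le hn) (ρ ∘ i.succAbove)))
          + mw_vdmc_T x y 𝔅 pts π K' w ⟨n, hn⟩
          + Real.log (mw_wnorm K' w (fun p : Fin m × Fin (s + 1) => Mx p.1 p.2))
          + bnd + (Real.log C₁ + a * Real.log C₂) := by
  have hxN := rt_isSepGen_jBar N
  have hy0 : ∃ b, y b ≠ 0 := mw_v_exists_ne_zero G.hyli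
  obtain ⟨hcc, hzm, hlc, hlow, Zd, hZd, hZdeg⟩ := mw_vdmc_step G n hn ρ hD
  set J := mw_vdmc_J y vb pts π with hJdef
  set cc := mw_vdmc_cc y vb Mx pts π n hn ρ with hccdef
  set P := pts ⟨n, hn⟩ with hP
  set μ := mw_vdmc_jn pts ⟨n, hn⟩ with hμ
  set lam := mw_vdmc_cof J n hn ρ with hlam
  have hDK : mw_vdmc_D J (n + 1) hn ρ ∈ K' := mw_vdmc_D_mem J R.hJ _ _ _
  have hlamK : ∀ i, lam i ∈ K' := fun i => mw_vdmc_cof_mem J R.hJ n hn ρ i
  have hccK : ∀ b, cc b ∈ K' := fun b =>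
    sum_mem fun i _ => mul_mem (hlamK i) (R.hMx _ _)
  -- the upper half of [KLμ]
  have hkl := hKL cc P (π P) μ hcc hzm (mw_vdmc_hπ_of_jn G ⟨n, hn⟩) hccK (R.hxP _) (R.hyP _)
    (R.hZ n hn ρ hD) (R.htan ⟨n, hn⟩) (by rw [hlc]; exact hDK)
  rw [hlc] at hkl
  have hup := (abs_le.mp hkl).2
  have hApos : 0 < mw_wabs K' w (mw_vdmc_D J (n + 1) hn ρ) := mw_la_wabs_pos K' w hDK hD
  have hccpos : 0 < mw_wnorm K' w cc := mw_la_wnorm_pos K' w hcc hccK
  have hyPpos : 0 < mw_wnorm K' w (mw_vec y P) :=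
    mw_la_wnorm_pos K' w (mw_v_vec_ne_zero y hy0 P) (R.hyP _)
  rw [Real.log_div hApos.ne' (mul_pos hccpos hyPpos).ne',
    Real.log_mul hccpos.ne' hyPpos.ne'] at hup
  -- the sum over the zeros
  set ld : mw_X N → ℝ := fun z => Real.log (mw_delta K' w (mw_vec x P) (mw_vec x z)) with hld
  set S : Finset (mw_X N) := Zd.support ∪ 𝔅.support ∪ Finset.univ.image pts with hS
  have hSZ : Zd.support ⊆ S := fun z hz =>
    Finset.mem_union_left _ (Finset.mem_union_left _ hz)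
  have hSB : 𝔅.support ⊆ S := fun z hz =>
    Finset.mem_union_left _ (Finset.mem_union_right _ hz)
  have hSp : ∀ l : Fin m, pts l ∈ S := fun l =>
    Finset.mem_union_right _ (Finset.mem_image_of_mem pts (Finset.mem_univ l))
  have hfs : (∑ᶠ z : mw_X N, if z = P then (0 : ℝ) else (mw_zeroMult y cc z : ℝ) * ld z)
      = ∑ z ∈ S, (if z = P then (0 : ℝ) else (Zd z : ℝ) * ld z) := by
    rw [finsum_eq_sum_of_support_subset]
    · exact Finset.sum_congr rfl fun z _ => by rw [hZd z]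
    · intro z hz
      rw [Function.mem_support] at hz
      apply hSZ
      rw [Finsupp.mem_support_iff, hZd z]
      intro h0
      apply hz
      rw [h0]
      simp
  have hsumZ : ∑ z ∈ S, Zd z = (a : ℤ) := by
    rw [← rt_degree_eq_sum hxN Zd S hSZ, hZdeg]
  have hBnn : ∀ z, 0 ≤ 𝔅 z := fun z => by
    have := Finsupp.le_def.mp G.hB z
    rwa [Finsupp.zero_apply] at this
  have hPB : 𝔅 P = 0 := G.hpB _
  have hxP0 : mw_vec x P ≠ 0 := mw_v_vec_ne_zero x hx0 P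
  have hbound := mw_vdmc_sum_bound S P (fun z => Zd z)
    (fun z => 𝔅 z + (mw_vdmc_cnt pts n z : ℤ)) ld (Real.log C₂) a (Real.log_nonneg h2)
    (fun z => add_nonneg (hBnn z) (Int.natCast_nonneg _))
    (fun z => by rw [hZd z]; exact hlow z)
    (fun z _ _ hlt => by
      have hz0 : mw_zeroMult y cc z ≠ 0 := by
        rw [← hZd z]
        have := add_nonneg (hBnn z) (Int.natCast_nonneg (mw_vdmc_cnt pts n z))
        omega
      exact mw_vdmc_log_delta_le K' w hC₂ h2 (R.hxP _) (R.hZ n hn ρ hD z hz0) hxP0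
        (mw_v_vec_ne_zero x hx0 z))
    hsumZ
  -- the main term of the sum
  have hmain : ∑ z ∈ S, (if z = P then (0 : ℝ) else
        ((𝔅 z + (mw_vdmc_cnt pts n z : ℤ) : ℤ) : ℝ) * ld z)
      = (∑ l : Fin m, if l.val < n ∧ pts l ≠ P then ld (pts l) else 0)
        + 𝔅.sum fun z k => (k : ℝ) * ld z := by
    have e1 : ∀ z ∈ S, (if z = P then (0 : ℝ) else
          ((𝔅 z + (mw_vdmc_cnt pts n z : ℤ) : ℤ) : ℝ) * ld z)
        = (𝔅 z : ℝ) * ld z
          + (mw_vdmc_cnt pts n z : ℝ) * (if z = P then 0 else ld z) := by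
      intro z _
      by_cases hzP : z = P
      · rw [if_pos hzP, if_pos hzP, hzP, hPB]
        simp
      · rw [if_neg hzP, if_neg hzP]
        push_cast
        ring
    rw [Finset.sum_congr rfl e1, Finset.sum_add_distrib, add_comm]
    congr 1
    · rw [← mw_vdmc_sum_prefix pts n S (fun l _ => hSp l) (fun z => if z = P then 0 else ld z)]
      refine Finset.sum_congr rfl fun l _ => ?_
      by_cases hl : l.val < n
      · by_cases hlP : pts l = P
        · rw [if_pos hl, if_pos hlP, if_neg (fun h => h.2 hlP)]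
        · rw [if_pos hl, if_neg hlP, if_pos ⟨hl, hlP⟩]
      · rw [if_neg hl, if_neg (fun h => hl h.1)]
    · rw [Finsupp.sum]
      refine (Finset.sum_subset hSB fun z _ hz => ?_).symm
      rw [Finsupp.notMem_support_iff.mp hz]
      simp
  rw [hfs] at hup
  rw [hmain] at hbound
  -- the norm of `cc`
  set BM : ℝ := mw_wnorm K' w (fun p : Fin m × Fin (s + 1) => Mx p.1 p.2) with hBM
  have hBM0 : 0 ≤ BM := mw_la_wnorm_nonneg K' w _
  obtain ⟨i₀, -, hi₀⟩ := Finset.exists_max_image (Finset.univ : Finset (Fin (n + 1)))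
    (fun i => mw_wabs K' w (lam i)) ⟨0, Finset.mem_univ _⟩
  have hBl0 : 0 ≤ mw_wabs K' w (lam i₀) := mw_la_wabs_nonneg K' w _
  have hnorm : mw_wnorm K' w cc ≤ C₁ * (mw_wabs K' w (lam i₀) * BM) :=
    mw_vdmc_wnorm_comb K' w hC₁ hn lam (fun i b => Mx (ρ i) b) hlamK (fun i b => R.hMx _ _)
      _ _ hBl0 hBM0 (fun i => hi₀ i (Finset.mem_univ i))
      (fun i b => mw_la_le_wnorm K' w (fun p : Fin m × Fin (s + 1) => Mx p.1 p.2) (ρ i, b))
  have hC₁pos : 0 < C₁ := lt_of_lt_of_le one_pos h1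
  have hprodpos : 0 < mw_wabs K' w (lam i₀) * BM := by
    by_contra hcon
    push Not at hcon
    have : C₁ * (mw_wabs K' w (lam i₀) * BM) ≤ 0 :=
      mul_nonpos_of_nonneg_of_nonpos hC₁pos.le hcon
    linarith
  have hlpos : 0 < mw_wabs K' w (lam i₀) := by
    rcases eq_or_lt_of_le hBl0 with h | h
    · rw [← h, zero_mul] at hprodpos
      exact absurd hprodpos (lt_irrefl 0)
    · exact h
  have hBMpos : 0 < BM := by
    rcases eq_or_lt_of_le hBM0 with h | h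
    · rw [← h, mul_zero] at hprodpos
      exact absurd hprodpos (lt_irrefl 0)
    · exact h
  have hlognorm : Real.log (mw_wnorm K' w cc)
      ≤ Real.log C₁ + (Real.log (mw_wabs K' w (lam i₀)) + Real.log BM) := by
    have := Real.log_le_log hccpos hnorm
    rwa [Real.log_mul hC₁pos.ne' hprodpos.ne', Real.log_mul hlpos.ne' hBMpos.ne'] at this
  have hcofeq : mw_wabs K' w (lam i₀)
      = mw_wabs K' w (mw_vdmc_D J n (Nat.le_of_succ_le hn) (ρ ∘ i₀.succAbove)) :=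
    mw_vdmc_wabs_cof K' w J n hn ρ i₀
  refine ⟨i₀, ?_, ?_⟩
  · intro h0
    rw [hcofeq, h0, mw_la_wabs_zero] at hlpos
    exact lt_irrefl 0 hlpos
  · rw [← hcofeq]
    unfold mw_vdmc_T
    linarith

theorem mw_vdmc_sum_lt_succ {m : ℕ} (e : Fin m → ℝ) (n : ℕ) (hn : n < m) :
    ∑ k : Fin m, (if k.val < n + 1 then e k else 0)
      = ∑ k : Fin m, (if k.val < n then e k else 0) + e ⟨n, hn⟩ := by
  have : ∀ k : Fin m, (if k.val < n + 1 then e k else 0)
      = (if k.val < n then e k else 0) + (if k = ⟨n, hn⟩ then e k else 0) := by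
    intro k
    by_cases h1 : k.val < n
    · have h2 : k ≠ ⟨n, hn⟩ := fun h => by rw [h] at h1; exact lt_irrefl _ h1
      rw [if_pos h1, if_pos (by omega), if_neg h2, add_zero]
    · by_cases h2 : k = ⟨n, hn⟩
      · subst h2
        rw [if_neg h1, if_pos (by simp), if_pos rfl, zero_add]
      · have h3 : ¬ k.val < n + 1 := by
          intro h
          apply h2
          apply Fin.ext
          simp only
          omega
        rw [if_neg h1, if_neg h3, if_neg h2, add_zero]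
  rw [Finset.sum_congr rfl fun k _ => this k, Finset.sum_add_distrib, Finset.sum_ite_eq']
  simp

/-- **the local induction** -/
theorem mw_vdmc_local_ind (hx0 : ∃ b, x b ≠ 0) (G : mw_vdmc_Geom y Pinf a 𝔅 vb Mx pts π)
    (R : mw_vdmc_Rat x y vb Mx pts π K') {bnd C₁ C₂ : ℝ} (hKL : mw_vdmc_KLAt x y K' w bnd)
    (h1 : 1 ≤ C₁) (h2 : 1 ≤ C₂) (hC₁ : mw_vdmc_SumBd K' w m C₁)
    (hC₂ : mw_vdmc_WedgeBd K' w r C₂) :
    ∀ (n : ℕ) (hn : n ≤ m) (ρ : Fin n → Fin m),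
      mw_vdmc_D (mw_vdmc_J y vb pts π) n hn ρ ≠ 0 →
      Real.log (mw_wabs K' w (mw_vdmc_D (mw_vdmc_J y vb pts π) n hn ρ)) ≤
        ∑ k : Fin m, if k.val < n then
          (mw_vdmc_T x y 𝔅 pts π K' w k
            + Real.log (mw_wnorm K' w (fun p : Fin m × Fin (s + 1) => Mx p.1 p.2))
            + bnd + (Real.log C₁ + a * Real.log C₂)) else 0 := by
  intro n
  induction n with
  | zero =>
    intro hn ρ _
    rw [mw_vdmc_D_zero, mw_vdmc_wabs_one, Real.log_one]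
    simp
  | succ n ih =>
    intro hn ρ hD
    obtain ⟨i, hi0, hi⟩ := mw_vdmc_local_step hx0 G R hKL h1 h2 hC₁ hC₂ n hn ρ hD
    have := ih (Nat.le_of_succ_le hn) (ρ ∘ i.succAbove) hi0
    rw [mw_vdmc_sum_lt_succ _ n hn]
    linarith

/-- the local inequality for the full determinant -/
theorem mw_vdmc_local (hx0 : ∃ b, x b ≠ 0) (G : mw_vdmc_Geom y Pinf a 𝔅 vb Mx pts π)
    (R : mw_vdmc_Rat x y vb Mx pts π K') {bnd C₁ C₂ : ℝ} (hKL : mw_vdmc_KLAt x y K' w bnd)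
    (h1 : 1 ≤ C₁) (h2 : 1 ≤ C₂) (hC₁ : mw_vdmc_SumBd K' w m C₁)
    (hC₂ : mw_vdmc_WedgeBd K' w r C₂)
    (hD : mw_vdmc_D (mw_vdmc_J y vb pts π) m le_rfl id ≠ 0) :
    Real.log (mw_wabs K' w (mw_vdmc_D (mw_vdmc_J y vb pts π) m le_rfl id)) ≤
      ∑ k : Fin m, (mw_vdmc_T x y 𝔅 pts π K' w k
          + Real.log (mw_wnorm K' w (fun p : Fin m × Fin (s + 1) => Mx p.1 p.2))
          + bnd + (Real.log C₁ + a * Real.log C₂)) := by
  have := mw_vdmc_local_ind hx0 G R hKL h1 h2 hC₁ hC₂ m le_rfl id hD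
  refine this.trans (le_of_eq ?_)
  exact Finset.sum_congr rfl fun k _ => by rw [if_pos k.2]

end Local

end Fermat.Agent.MW
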