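/-
Project MW (S17), leaf [VDMC] (helper11), part (d1): FROM LOCAL TO GLOBAL.  The local inequality
`mw_vdmc_local` summed over all places of a number field `K' ≤ Q̄` containing the data, with helper18's
summation machine (`MW/Global/GKL/{Sum,Global,Bound}.lean`), the product formula for the nonzero
determinant and `[ABS]`.  Prefix `mw_vdmc_`.
-/
import Fermat.Agent.MW.Global.VDMC.Local
import Fermat.Agent.MW.Global.GKL.Global
import Fermat.Agent.MW.Global.GKL.Bound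

set_option autoImplicit false
set_option linter.unusedSectionVars false

noncomputable section

namespace Fermat.Agent.MW

open AlgebraicCurve ModularCurve Fermat.Agent.S24 Fermat.Agent.JT3 Fermat.Agent.FF
open Height AdmissibleAbsValues NumberField
open scoped Classical

/-! ### a small calculus for `mw_gkl_S` -/

section Calc

variable {K : Type*} [Field K] [NumberField K]

/-- `Φ` has finite nonarchimedean support and sum `v` over all places -/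
def mw_vdmc_HasS (Φ : AbsoluteValue K ℝ → ℝ) (v : ℝ) : Prop := mw_gkl_Fin Φ ∧ mw_gkl_S Φ = v

theorem mw_vdmc_hasS_zero : mw_vdmc_HasS (fun _ : AbsoluteValue K ℝ => (0 : ℝ)) 0 :=
  ⟨mw_gkl_fin_zero, mw_gkl_S_zero⟩

theorem mw_vdmc_hasS_add {Φ Ψ : AbsoluteValue K ℝ → ℝ} {a b : ℝ} (h1 : mw_vdmc_HasS Φ a)
    (h2 : mw_vdmc_HasS Ψ b) : mw_vdmc_HasS (fun w => Φ w + Ψ w) (a + b) :=
  ⟨mw_gkl_fin_add h1.1 h2.1, by rw [mw_gkl_S_add h1.1 h2.1, h1.2, h2.2]⟩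

theorem mw_vdmc_hasS_sub {Φ Ψ : AbsoluteValue K ℝ → ℝ} {a b : ℝ} (h1 : mw_vdmc_HasS Φ a)
    (h2 : mw_vdmc_HasS Ψ b) : mw_vdmc_HasS (fun w => Φ w - Ψ w) (a - b) :=
  ⟨mw_gkl_fin_sub h1.1 h2.1, by rw [mw_gkl_S_sub h1.1 h2.1, h1.2, h2.2]⟩

theorem mw_vdmc_hasS_smul (c : ℝ) {Φ : AbsoluteValue K ℝ → ℝ} {a : ℝ} (h : mw_vdmc_HasS Φ a) :
    mw_vdmc_HasS (fun w => c * Φ w) (c * a) :=
  ⟨mw_gkl_fin_smul c h.1, by rw [mw_gkl_S_smul, h.2]⟩

theorem mw_vdmc_hasS_sum {ι : Type*} (T : Finset ι) {Φ : ι → AbsoluteValue K ℝ → ℝ} {v : ι → ℝ}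
    (h : ∀ i ∈ T, mw_vdmc_HasS (Φ i) (v i)) :
    mw_vdmc_HasS (fun w => ∑ i ∈ T, Φ i w) (∑ i ∈ T, v i) :=
  ⟨mw_gkl_fin_sum T fun i hi => (h i hi).1, by
    rw [mw_gkl_S_sum T fun i hi => (h i hi).1]
    exact Finset.sum_congr rfl fun i hi => (h i hi).2⟩

theorem mw_vdmc_hasS_ite (c : Prop) [Decidable c] {Φ : AbsoluteValue K ℝ → ℝ} {a : ℝ}
    (h : c → mw_vdmc_HasS Φ a) :
    mw_vdmc_HasS (fun w => if c then Φ w else 0) (if c then a else 0) := by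
  by_cases hc : c
  · simp only [if_pos hc]
    exact h hc
  · simp only [if_neg hc]
    exact mw_vdmc_hasS_zero

theorem mw_vdmc_hasS_congr {Φ Ψ : AbsoluteValue K ℝ → ℝ} {a b : ℝ} (h : mw_vdmc_HasS Φ a)
    (e : ∀ w, Ψ w = Φ w) (eb : b = a) : mw_vdmc_HasS Ψ b := by
  have : Ψ = Φ := funext e
  rw [this, eb]
  exact h

end Calc

variable {N : ℕ} [NeZero N]

section Global

variable (K' : IntermediateField ℚ mw_K) [NumberField ↥K']

theorem mw_vdmc_hasS_wnorm (hABS : mw_SeamABS) {ι : Type} [Fintype ι] (v : ι → mw_K)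
    (hv : ∀ i, v i ∈ K') :
    mw_vdmc_HasS (fun w : AbsoluteValue ↥K' ℝ => Real.log (mw_wnorm K' w v))
      ((Module.finrank ℚ ↥K' : ℝ) * mw_ht v) := mw_gkl_S_wnorm K' hABS v hv

theorem mw_vdmc_hasS_delta (hABS : mw_SeamABS) {r : ℕ} {u v : Fin (r + 1) → mw_K}
    (hu : ∀ i, u i ∈ K') (hv : ∀ i, v i ∈ K') (hu0 : u ≠ 0) (hv0 : v ≠ 0)
    (hw0 : mw_wedge u v ≠ 0) :
    mw_vdmc_HasS (fun w : AbsoluteValue ↥K' ℝ => Real.log (mw_delta K' w u v))
      ((Module.finrank ℚ ↥K' : ℝ) * (mw_ht (mw_wedge u v) - mw_ht u - mw_ht v)) :=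
  mw_gkl_S_ratio K' hABS
    (fun _ => K'.sub_mem (K'.mul_mem (hu _) (hv _)) (K'.mul_mem (hu _) (hv _))) hu hv hw0 hu0 hv0

theorem mw_vdmc_hasS_kappa (hABS : mw_SeamABS) {r : ℕ} (x : Fin (r + 1) → mw_F N) (P : mw_X N)
    (π₀ : mw_F N) (hτ : ∀ i, mw_tanAt N x P π₀ i ∈ K') (hu : ∀ i, mw_vec x P i ∈ K')
    (hu0 : mw_vec x P ≠ 0) (hw0 : mw_wedge (mw_tanAt N x P π₀) (mw_vec x P) ≠ 0) :
    mw_vdmc_HasS (fun w : AbsoluteValue ↥K' ℝ => Real.log (mw_kappa N K' w x P π₀))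
      ((Module.finrank ℚ ↥K' : ℝ) * mw_hGauss N x P π₀) := by
  have h := mw_gkl_S_ratio K' hABS
    (A := mw_wedge (mw_tanAt N x P π₀) (mw_vec x P)) (B := mw_vec x P) (C := mw_vec x P)
    (fun _ => K'.sub_mem (K'.mul_mem (hτ _) (hu _)) (K'.mul_mem (hτ _) (hu _))) hu hu hw0 hu0 hu0
  refine mw_vdmc_hasS_congr h (fun w => ?_) ?_
  · rw [mw_kappa, pow_two]
  · rw [mw_hGauss]
    ring

variable {r s : ℕ} (x : Fin (r + 1) → mw_F N) (y : Fin (s + 1) → mw_F N) (Pinf : mw_X N) (a : ℕ)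
  (𝔅 : mw_Div N) {m : ℕ} (vb : Fin m → mw_F N) (Mx : Fin m → Fin (s + 1) → mw_K)
  (pts : Fin m → mw_X N) (π : mw_X N → mw_F N)

/-- the global term at the `k`-th point -/
def mw_vdmc_Tg (k : Fin m) : ℝ :=
  mw_ht (mw_vec y (pts k))
    + (mw_vdmc_jn pts k : ℝ) * mw_hGauss N x (pts k) (π (pts k))
    - (∑ l : Fin m, if l.val < k.val ∧ pts l ≠ pts k then mw_hD x (pts k) (pts l) else 0)
    - mw_hDiv N x 𝔅 (pts k)

variable {x y Pinf a 𝔅 vb Mx pts π}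

/-- the sum over all places of the local term is the global term -/
theorem mw_vdmc_hasS_T (hABS : mw_SeamABS) (hx0 : ∃ b, x b ≠ 0)
    (hsep : ∀ P Q : mw_X N, P ≠ Q → mw_wedge (mw_vec x P) (mw_vec x Q) ≠ 0)
    (hxP : ∀ k b, mw_vec x (pts k) b ∈ K') (hyP : ∀ k b, mw_vec y (pts k) b ∈ K')
    (hxB : ∀ z ∈ 𝔅.support, ∀ b, mw_vec x z b ∈ K') (hpB : ∀ k, 𝔅 (pts k) = 0)
    (htan : ∀ k, 1 ≤ mw_vdmc_jn pts k → ∀ b, mw_tanAt N x (pts k) (π (pts k)) b ∈ K')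
    (htw : ∀ k, 1 ≤ mw_vdmc_jn pts k →
      mw_wedge (mw_tanAt N x (pts k) (π (pts k))) (mw_vec x (pts k)) ≠ 0) (k : Fin m) :
    mw_vdmc_HasS (fun w : AbsoluteValue ↥K' ℝ => mw_vdmc_T x y 𝔅 pts π K' w k)
      ((Module.finrank ℚ ↥K' : ℝ) * mw_vdmc_Tg x y 𝔅 pts π k) := by
  set d : ℝ := (Module.finrank ℚ ↥K' : ℝ) with hd
  have hvx : ∀ z : mw_X N, mw_vec x z ≠ 0 := fun z => mw_v_vec_ne_zero x hx0 z
  -- the four pieces
  have h1 := mw_vdmc_hasS_wnorm K' hABS (mw_vec y (pts k)) (hyP k)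
  have h2 : mw_vdmc_HasS (fun w : AbsoluteValue ↥K' ℝ =>
      (mw_vdmc_jn pts k : ℝ) * Real.log (mw_kappa N K' w x (pts k) (π (pts k))))
      (d * ((mw_vdmc_jn pts k : ℝ) * mw_hGauss N x (pts k) (π (pts k)))) := by
    rcases Nat.eq_zero_or_pos (mw_vdmc_jn pts k) with h0 | hpos
    · rw [h0]
      refine mw_vdmc_hasS_congr mw_vdmc_hasS_zero (fun w => by simp) (by simp)
    · have := mw_vdmc_hasS_smul (mw_vdmc_jn pts k : ℝ)
        (mw_vdmc_hasS_kappa K' hABS x (pts k) (π (pts k)) (htan k hpos) (hxP k) (hvx _)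
          (htw k hpos))
      exact mw_vdmc_hasS_congr this (fun _ => rfl) (by ring)
  have h3 : mw_vdmc_HasS (fun w : AbsoluteValue ↥K' ℝ =>
      ∑ l : Fin m, if l.val < k.val ∧ pts l ≠ pts k then
        Real.log (mw_delta K' w (mw_vec x (pts k)) (mw_vec x (pts l))) else 0)
      (∑ l : Fin m, if l.val < k.val ∧ pts l ≠ pts k then
        d * (mw_ht (mw_wedge (mw_vec x (pts k)) (mw_vec x (pts l)))
          - mw_ht (mw_vec x (pts k)) - mw_ht (mw_vec x (pts l))) else 0) :=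
    mw_vdmc_hasS_sum Finset.univ fun l _ =>
      mw_vdmc_hasS_ite (l.val < k.val ∧ pts l ≠ pts k) fun hc =>
      mw_vdmc_hasS_delta K' hABS (hxP k) (hxP l) (hvx _) (hvx _) (hsep _ _ (Ne.symm hc.2))
  have h4 : mw_vdmc_HasS (fun w : AbsoluteValue ↥K' ℝ =>
      𝔅.sum fun z n => (n : ℝ) * Real.log (mw_delta K' w (mw_vec x (pts k)) (mw_vec x z)))
      (∑ z ∈ 𝔅.support, (𝔅 z : ℝ) *
        (d * (mw_ht (mw_wedge (mw_vec x (pts k)) (mw_vec x z))
          - mw_ht (mw_vec x (pts k)) - mw_ht (mw_vec x z)))) := by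
    have := mw_vdmc_hasS_sum (K := ↥K') 𝔅.support
      (Φ := fun z w => (𝔅 z : ℝ) * Real.log (mw_delta K' w (mw_vec x (pts k)) (mw_vec x z)))
      (v := fun z => (𝔅 z : ℝ) *
        (d * (mw_ht (mw_wedge (mw_vec x (pts k)) (mw_vec x z))
          - mw_ht (mw_vec x (pts k)) - mw_ht (mw_vec x z))))
      fun z hz => mw_vdmc_hasS_smul _
        (mw_vdmc_hasS_delta K' hABS (hxP k) (hxB z hz) (hvx _) (hvx _) (hsep _ _ (by
          intro h
          rw [← h] at hz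
          exact (Finsupp.mem_support_iff.mp hz) (hpB k))))
    exact this
  have hall := mw_vdmc_hasS_add (mw_vdmc_hasS_add (mw_vdmc_hasS_add h1 h2) h3) h4
  refine mw_vdmc_hasS_congr hall (fun w => rfl) ?_
  unfold mw_vdmc_Tg mw_hDiv mw_hD
  rw [Finsupp.sum]
  have e3 : ∀ l : Fin m, (if l.val < k.val ∧ pts l ≠ pts k then
        d * (mw_ht (mw_wedge (mw_vec x (pts k)) (mw_vec x (pts l)))
          - mw_ht (mw_vec x (pts k)) - mw_ht (mw_vec x (pts l))) else 0)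
      = -(d * (if l.val < k.val ∧ pts l ≠ pts k then
          (mw_ht (mw_vec x (pts k)) + mw_ht (mw_vec x (pts l))
            - mw_ht (mw_wedge (mw_vec x (pts k)) (mw_vec x (pts l)))) else 0)) := by
    intro l
    split_ifs
    · ring
    · simp
  rw [Finset.sum_congr rfl fun l _ => e3 l, Finset.sum_neg_distrib, ← Finset.mul_sum]
  have e4 : ∀ z ∈ 𝔅.support, (𝔅 z : ℝ) *
        (d * (mw_ht (mw_wedge (mw_vec x (pts k)) (mw_vec x z))
          - mw_ht (mw_vec x (pts k)) - mw_ht (mw_vec x z)))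
      = -(d * ((𝔅 z : ℝ) * (mw_ht (mw_vec x (pts k)) + mw_ht (mw_vec x z)
          - mw_ht (mw_wedge (mw_vec x (pts k)) (mw_vec x z))))) := fun z _ => by ring
  rw [Finset.sum_congr rfl e4, Finset.sum_neg_distrib, ← Finset.mul_sum]
  ring

/-- **the global inequality** (in the enumerated form) -/
theorem mw_vdmc_global (hABS : mw_SeamABS) (hx0 : ∃ b, x b ≠ 0)
    (hsep : ∀ P Q : mw_X N, P ≠ Q → mw_wedge (mw_vec x P) (mw_vec x Q) ≠ 0)
    (G : mw_vdmc_Geom y Pinf a 𝔅 vb Mx pts π) (R : mw_vdmc_Rat x y vb Mx pts π K')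
    (hxB : ∀ z ∈ 𝔅.support, ∀ b, mw_vec x z b ∈ K')
    (htw : ∀ k, 1 ≤ mw_vdmc_jn pts k →
      mw_wedge (mw_tanAt N x (pts k) (π (pts k))) (mw_vec x (pts k)) ≠ 0)
    {γ : ℝ} {cp : ℕ → ℝ} (hγ : 0 ≤ γ) (hcp : ∀ p, 0 ≤ cp p) (hfin : {p | cp p ≠ 0}.Finite)
    (hm : 1 ≤ m)
    (hKL : ∀ (w : AbsoluteValue ↥K' ℝ) (bnd : ℝ), mw_IsBound K' w γ cp bnd →
      mw_vdmc_KLAt x y K' w bnd)
    (hD : mw_vdmc_D (mw_vdmc_J y vb pts π) m le_rfl id ≠ 0) :
    0 ≤ ∑ k, mw_vdmc_Tg x y 𝔅 pts π k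
      + (m : ℝ) * (mw_ht (fun p : Fin m × Fin (s + 1) => Mx p.1 p.2)
          + ((Real.log m + a * Real.log 2) + γ)
          + ∑ p ∈ hfin.toFinset, cp p * Real.log p) := by
  have hdpos := mw_gkl_finrank_pos K'
  set d : ℝ := (Module.finrank ℚ ↥K' : ℝ) with hd
  set Δ := mw_vdmc_D (mw_vdmc_J y vb pts π) m le_rfl id with hΔ
  have hΔK : Δ ∈ K' := mw_vdmc_D_mem _ R.hJ _ _ _
  set γ₁ : ℝ := Real.log m + a * Real.log 2 with hγ₁
  have hγ₁0 : 0 ≤ γ₁ := by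
    have h1 : 0 ≤ Real.log (m : ℝ) := Real.log_natCast_nonneg m
    have h2 : 0 ≤ Real.log (2 : ℝ) := Real.log_nonneg (by norm_num)
    positivity
  set Mflat : Fin m × Fin (s + 1) → mw_K := fun p => Mx p.1 p.2 with hMflat
  -- the local function
  set Φ : AbsoluteValue ↥K' ℝ → ℝ := fun w =>
    Real.log (mw_wabs K' w Δ)
      - ∑ k : Fin m, (mw_vdmc_T x y 𝔅 pts π K' w k + Real.log (mw_wnorm K' w Mflat)) with hΦ
  -- the local inequality
  have hloc : ∀ (w : AbsoluteValue ↥K' ℝ) (bnd : ℝ), mw_IsBound K' w (γ₁ + γ) cp bnd →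
      Φ w ≤ m * bnd := by
    intro w bnd hb
    obtain ⟨b₁, b₂, hb₁, hb₂, hsum⟩ := mw_la_bound_zero_split K' w hb
    obtain ⟨C₁, C₂, h1, h2, hC₁, hC₂, hle⟩ := mw_vdmc_consts K' w m r a hm hb₁
    have := mw_vdmc_local hx0 G R (hKL w b₂ hb₂) h1 h2 hC₁ hC₂ hD
    have hsplit : ∑ k : Fin m, (mw_vdmc_T x y 𝔅 pts π K' w k
          + Real.log (mw_wnorm K' w Mflat) + b₂ + (Real.log C₁ + a * Real.log C₂))
        ≤ ∑ k : Fin m, ((mw_vdmc_T x y 𝔅 pts π K' w k + Real.log (mw_wnorm K' w Mflat)) + bnd) :=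
      Finset.sum_le_sum fun k _ => by linarith
    have hconst : ∑ k : Fin m,
          ((mw_vdmc_T x y 𝔅 pts π K' w k + Real.log (mw_wnorm K' w Mflat)) + bnd)
        = ∑ k : Fin m, (mw_vdmc_T x y 𝔅 pts π K' w k + Real.log (mw_wnorm K' w Mflat))
          + m * bnd := by
      rw [Finset.sum_add_distrib, Finset.sum_const, Finset.card_univ, Fintype.card_fin,
        nsmul_eq_mul]
    rw [hconst] at hsplit
    rw [hΦ]
    simp only
    linarith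
  -- the global sum of `Φ`
  have hT := fun k => mw_vdmc_hasS_T K' hABS hx0 hsep R.hxP R.hyP hxB G.hpB R.htan htw k
  have hM := mw_vdmc_hasS_wnorm K' hABS Mflat (fun p => R.hMx p.1 p.2)
  have hΦS : mw_vdmc_HasS Φ (0 - ∑ k : Fin m, (d * mw_vdmc_Tg x y 𝔅 pts π k + d * mw_ht Mflat)) :=
    mw_vdmc_hasS_sub (mw_gkl_S_wabs K' hΔK)
      (mw_vdmc_hasS_sum Finset.univ fun k _ => mw_vdmc_hasS_add (hT k) hM)
  -- the bound
  have hfin' : {p | (m : ℝ) * cp p ≠ 0}.Finite := hfin.subset fun p hp => by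
    intro h
    apply hp
    rw [h, mul_zero]
  have hbound := mw_gkl_S_le_bound (K := ↥K') (γ := m * (γ₁ + γ)) (cp := fun p => m * cp p)
    (by positivity) (fun p => mul_nonneg (Nat.cast_nonneg m) (hcp p)) hfin' hΦS.1
    (fun w hw => hloc w _ (Or.inl ⟨hw, rfl⟩))
    (fun w hw p hp hp1 => by
      have := hloc w _ (Or.inr ⟨hw, p, hp, hp1, rfl⟩)
      linarith)
  rw [hΦS.2] at hbound
  have hsumeq : ∑ p ∈ hfin'.toFinset, (m : ℝ) * cp p * Real.log p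
      = (m : ℝ) * ∑ p ∈ hfin.toFinset, cp p * Real.log p := by
    rw [Finset.mul_sum]
    have hsub : hfin'.toFinset ⊆ hfin.toFinset := by
      intro p hp
      rw [Set.Finite.mem_toFinset] at hp ⊢
      intro h
      apply hp
      show (m : ℝ) * cp p = 0
      rw [h, mul_zero]
    rw [Finset.sum_subset hsub fun p _ hp => by
      rw [Set.Finite.mem_toFinset] at hp
      have : (m : ℝ) * cp p = 0 := by
        by_contra h
        exact hp h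
      rw [this, zero_mul]]
    exact Finset.sum_congr rfl fun p _ => by ring
  rw [hsumeq] at hbound
  rw [Finset.sum_add_distrib, Finset.sum_const, Finset.card_univ, Fintype.card_fin, nsmul_eq_mul,
    ← Finset.mul_sum] at hbound
  have key : 0 ≤ d * (∑ k, mw_vdmc_Tg x y 𝔅 pts π k
      + (m : ℝ) * (mw_ht Mflat + (γ₁ + γ) + ∑ p ∈ hfin.toFinset, cp p * Real.log p)) := by
    nlinarith
  exact nonneg_of_mul_nonneg_right key hdpos

end Global

end Fermat.Agent.MW
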