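/-
Project MW (S17), leaf [VDMC] (helper11), part (b3): the full jet determinant of a basis of
`L(a∞ - 𝔅)` at an effective divisor `E` imposing independent conditions (`l(a∞ - 𝔅 - E) = 0`)
does not vanish.  Prefix `mw_vdmc_`.
-/
import Fermat.Agent.MW.Global.VDMC.Setup

set_option autoImplicit false
set_option linter.unusedSectionVars false

noncomputable section

namespace Fermat.Agent.MW

open AlgebraicCurve ModularCurve Fermat.Agent.S24 Fermat.Agent.JT3 Fermat.Agent.FF
open scoped Classical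

variable {N : ℕ} [NeZero N]

variable {s : ℕ} {y : Fin (s + 1) → mw_F N} {Pinf : mw_X N} {a : ℕ} {𝔅 : mw_Div N}
  {m : ℕ} {vb : Fin m → mw_F N} {Mx : Fin m → Fin (s + 1) → mw_K}
  {pts : Fin m → mw_X N} {π : mw_X N → mw_F N}

set_option synthInstance.maxHeartbeats 400000 in
theorem mw_vdmc_L_eq_bot (D : mw_Div N)
    (h : Module.finrank mw_K ↥(riemannRochSpace D) = 0) : riemannRochSpace D = ⊥ := by
  have hfin := rt_L_finite (rt_isSepGen_jBar N) D
  exact Submodule.finrank_eq_zero.mp h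

/-- **the full jet determinant does not vanish** when `E = ∑ pts` imposes independent conditions
on `L(a∞ - 𝔅)` -/
theorem mw_vdmc_det_ne_zero (G : mw_vdmc_Geom y Pinf a 𝔅 vb Mx pts π)
    (hli : LinearIndependent mw_K vb) (E : mw_Div N)
    (hE : ∀ z, E z = (mw_vdmc_cnt pts m z : ℤ))
    (hl0 : Module.finrank mw_K ↥(riemannRochSpace (Finsupp.single Pinf (a : ℤ) - 𝔅 - E)) = 0) :
    mw_vdmc_D (mw_vdmc_J y vb pts π) m le_rfl id ≠ 0 := by
  have hxN := rt_isSepGen_jBar N
  have hy0 : ∃ b, y b ≠ 0 := mw_v_exists_ne_zero G.hyli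
  intro hdet
  have hdet' : (Matrix.of (mw_vdmc_J y vb pts π)).det = 0 := by
    rw [← hdet, mw_vdmc_D]
    congr 1
  obtain ⟨c, hc0, hc⟩ := Matrix.exists_vecMul_eq_zero_iff.mpr hdet'
  set f : mw_F N := ∑ i, algebraMap mw_K (mw_F N) (c i) * vb i with hf
  have hfV : f ∈ riemannRochSpace (Finsupp.single Pinf (a : ℤ) - 𝔅) := by
    refine Submodule.sum_mem _ fun i _ => ?_
    rw [← Algebra.smul_def]
    exact Submodule.smul_mem _ _ (G.hvbm _)
  have hf0 : f ≠ 0 := by
    intro h0
    apply hc0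
    have := Fintype.linearIndependent_iff.mp hli c (by
      rw [← h0, hf]
      exact Finset.sum_congr rfl fun i _ => by rw [Algebra.smul_def])
    exact funext this
  -- the jets of `f`
  have hjet : ∀ k : Fin m, mw_vj_jet (pts k) (π (pts k))
      (f / y (mw_piv y (pts k))) (mw_vdmc_jn pts k) = 0 := by
    intro k
    rw [hf, Finset.sum_div, Finset.sum_congr rfl fun i _ => mul_div_assoc _ _ _,
      mw_vdmc_jet_sum (mw_vdmc_hπ_of_jn G k) Finset.univ _ _ fun i _ =>
        mw_vdmc_quot_mem G (pts k) (G.hvbm _)]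
    have := congrFun hc k
    rw [Matrix.vecMul, dotProduct] at this
    exact this
  have hmem : f ∈ riemannRochSpace (Finsupp.single Pinf (a : ℤ) - 𝔅 - E) := by
    rw [rt_mem_L_iff hf0]
    intro z
    have h1 := (rt_mem_L_iff hf0).mp hfV z
    rw [Finsupp.sub_apply] at h1
    rw [Finsupp.sub_apply, Finsupp.sub_apply]
    rcases Nat.eq_zero_or_pos (mw_vdmc_cnt pts m z) with h0 | hpos
    · rw [hE z, h0]
      push_cast
      omega
    · obtain ⟨l, -, hlz, -⟩ := mw_vdmc_exists_of_lt_cnt pts z m le_rfl 0 hpos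
      have hBz : 𝔅 z = 0 := by rw [← hlz]; exact G.hpB l
      have hp0 := (mw_v_piv_spec y hy0 z).1
      have hq0 : f / y (mw_piv y z) ≠ 0 := div_ne_zero hf0 hp0
      have h2 : ((mw_vdmc_cnt pts m z : ℕ) : ℤ) ≤ z.ord (f / y (mw_piv y z)) := by
        refine mw_vdmc_le_ord_of_jets_zero (π := π z) ?_ (mw_vdmc_quot_mem G z hfV) hq0 fun i hi => ?_
        · intro h2
          have := G.hπ l (by rw [hlz]; exact h2)
          rwa [hlz] at this
        · obtain ⟨l', -, hl'z, hl'j⟩ := mw_vdmc_exists_of_lt_cnt pts z m le_rfl i hi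
          have := hjet l'
          rwa [hl'z, hl'j] at this
      rw [div_eq_mul_inv, z.ord_mul hf0 (inv_ne_zero hp0), z.ord_inv, G.hypiv z] at h2
      rw [hE z, hBz]
      omega
  rw [mw_vdmc_L_eq_bot _ hl0, Submodule.mem_bot] at hmem
  exact hf0 hmem

end Fermat.Agent.MW
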