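/-
Project MW (S17), leaf [VDMC] (owner helper11), cell [REGROUP] (helper1): the regroupings that turn
sums over an enumeration `pts : Fin m → α` (with repetitions) of an effective divisor
`E = ∑ₖ (pts k)` into the `Finsupp` sums of `mw_SeamVDMC`.  Mathlib + `VDMC/Count` only.
Prefix `mw_vdmc_rg_`.
-/
import Fermat.Agent.MW.Global.VDMC.Count

set_option autoImplicit false

namespace Fermat.Agent.MW

open scoped Classical

variable {α : Type*} {m : ℕ}

/-- (R0) the multiplicity of `P` in `E = ∑ₖ (pts k)` is the number of occurrences of `P` -/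
theorem mw_vdmc_rg_apply (pts : Fin m → α) (E : α →₀ ℤ)
    (hE : ∑ k, Finsupp.single (pts k) (1 : ℤ) = E) (P : α) :
    E P = (mw_vdmc_cnt pts m P : ℤ) := by
  rw [← hE, Finsupp.finsetSum_apply, mw_vdmc_cnt_top, Finset.card_filter, Nat.cast_sum]
  refine Finset.sum_congr rfl fun k _ => ?_
  rw [Finsupp.single_apply]
  split_ifs <;> simp

theorem mw_vdmc_rg_mem_support (pts : Fin m → α) (E : α →₀ ℤ)
    (hE : ∑ k, Finsupp.single (pts k) (1 : ℤ) = E) (k : Fin m) : pts k ∈ E.support := by
  rw [Finsupp.mem_support_iff, mw_vdmc_rg_apply pts E hE]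
  have := mw_vdmc_cnt_pos pts (n := m) (l := k) k.2
  exact_mod_cast this.ne'

/-- the prefix form of the master regrouping: a function of (point, jet order) summed over the
first `n` indices -/
theorem mw_vdmc_rg_prefix (pts : Fin m → α) (S : Finset α) (hS : ∀ l : Fin m, pts l ∈ S)
    (ψ : α → ℕ → ℝ) :
    ∀ n : ℕ, n ≤ m →
      ∑ k : Fin m, (if k.val < n then ψ (pts k) (mw_vdmc_jn pts k) else 0)
        = ∑ P ∈ S, ∑ j ∈ Finset.range (mw_vdmc_cnt pts n P), ψ P j := by
  intro n
  induction n with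
  | zero =>
    intro _
    simp [mw_vdmc_cnt_zero]
  | succ n ih =>
    intro hn
    have hn' : n < m := hn
    have ih' := ih (Nat.le_of_lt hn')
    have hL : ∑ k : Fin m, (if k.val < n + 1 then ψ (pts k) (mw_vdmc_jn pts k) else 0)
        = ∑ k : Fin m, (if k.val < n then ψ (pts k) (mw_vdmc_jn pts k) else 0)
          + ψ (pts ⟨n, hn'⟩) (mw_vdmc_jn pts ⟨n, hn'⟩) := by
      have h1 : ∀ k : Fin m, (if k.val < n + 1 then ψ (pts k) (mw_vdmc_jn pts k) else 0)
          = (if k.val < n then ψ (pts k) (mw_vdmc_jn pts k) else 0)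
            + (if k = ⟨n, hn'⟩ then ψ (pts k) (mw_vdmc_jn pts k) else 0) := by
        intro k
        by_cases h : k.val < n
        · have hk : k ≠ ⟨n, hn'⟩ := fun h' => by rw [h'] at h; simp at h
          rw [if_pos h, if_pos (by omega), if_neg hk, add_zero]
        · by_cases h' : k = ⟨n, hn'⟩
          · rw [if_neg h, if_pos h', if_pos (by rw [h']; simp), zero_add]
          · have : ¬ k.val < n + 1 := fun h'' => h' (Fin.ext (by simp only; omega))
            rw [if_neg h, if_neg h', if_neg this, add_zero]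
      rw [Finset.sum_congr rfl fun k _ => h1 k, Finset.sum_add_distrib,
        Finset.sum_ite_eq' Finset.univ (⟨n, hn'⟩ : Fin m), if_pos (Finset.mem_univ _)]
    have hR : ∑ P ∈ S, ∑ j ∈ Finset.range (mw_vdmc_cnt pts (n + 1) P), ψ P j
        = ∑ P ∈ S, ∑ j ∈ Finset.range (mw_vdmc_cnt pts n P), ψ P j
          + ψ (pts ⟨n, hn'⟩) (mw_vdmc_cnt pts n (pts ⟨n, hn'⟩)) := by
      have h1 : ∀ P ∈ S, ∑ j ∈ Finset.range (mw_vdmc_cnt pts (n + 1) P), ψ P j
          = ∑ j ∈ Finset.range (mw_vdmc_cnt pts n P), ψ P j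
            + (if P = pts ⟨n, hn'⟩ then ψ P (mw_vdmc_cnt pts n P) else 0) := by
        intro P _
        rw [mw_vdmc_cnt_succ pts n hn' P]
        by_cases h : pts ⟨n, hn'⟩ = P
        · rw [if_pos h, if_pos h.symm, Finset.sum_range_succ]
        · rw [if_neg h, if_neg (fun h' => h h'.symm), add_zero, add_zero]
      rw [Finset.sum_congr rfl h1, Finset.sum_add_distrib,
        Finset.sum_ite_eq' S (pts ⟨n, hn'⟩), if_pos (hS _)]
    rw [hL, hR, ih']
    rfl

/-- the master regrouping: a function of (point, jet order) summed over all indices -/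
theorem mw_vdmc_rg_master (pts : Fin m → α) (E : α →₀ ℤ)
    (hE : ∑ k, Finsupp.single (pts k) (1 : ℤ) = E) (ψ : α → ℕ → ℝ) :
    ∑ k : Fin m, ψ (pts k) (mw_vdmc_jn pts k)
      = ∑ P ∈ E.support, ∑ j ∈ Finset.range (E P).toNat, ψ P j := by
  have h := mw_vdmc_rg_prefix pts E.support (mw_vdmc_rg_mem_support pts E hE) ψ m le_rfl
  have h1 : ∀ k : Fin m, (if k.val < m then ψ (pts k) (mw_vdmc_jn pts k) else 0)
      = ψ (pts k) (mw_vdmc_jn pts k) := fun k => if_pos k.2
  rw [Finset.sum_congr rfl fun k _ => h1 k] at h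
  rw [h]
  refine Finset.sum_congr rfl fun P _ => ?_
  rw [mw_vdmc_rg_apply pts E hE P, Int.toNat_natCast]

/-- (R1) -/
theorem mw_vdmc_rg_sum (pts : Fin m → α) (E : α →₀ ℤ)
    (hE : ∑ k, Finsupp.single (pts k) (1 : ℤ) = E) (f : α → ℝ) :
    ∑ k, f (pts k) = E.sum fun P n => (n : ℝ) * f P := by
  rw [mw_vdmc_rg_master pts E hE (fun P _ => f P), Finsupp.sum]
  refine Finset.sum_congr rfl fun P _ => ?_
  rw [Finset.sum_const, Finset.card_range, nsmul_eq_mul, mw_vdmc_rg_apply pts E hE P,
    Int.toNat_natCast, Int.cast_natCast]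

/-- (R2) the jet orders over the fibre of `P` are `0, …, E(P) - 1` -/
theorem mw_vdmc_rg_sum_jn (pts : Fin m → α) (E : α →₀ ℤ)
    (hE : ∑ k, Finsupp.single (pts k) (1 : ℤ) = E) (g : α → ℝ) :
    ∑ k, (mw_vdmc_jn pts k : ℝ) * g (pts k)
      = E.sum fun P n => (n : ℝ) * ((n : ℝ) - 1) / 2 * g P := by
  rw [mw_vdmc_rg_master pts E hE (fun P j => (j : ℝ) * g P), Finsupp.sum]
  refine Finset.sum_congr rfl fun P _ => ?_
  rw [← Finset.sum_mul, mw_vdmc_rg_apply pts E hE P, Int.toNat_natCast, Int.cast_natCast]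
  congr 1
  have hgauss : ∀ n : ℕ, ∑ j ∈ Finset.range n, (j : ℝ) = (n : ℝ) * ((n : ℝ) - 1) / 2 := by
    intro n
    induction n with
    | zero => simp
    | succ n ih =>
      rw [Finset.sum_range_succ, ih]
      push_cast
      ring
  exact hgauss _

/-- (R3) the sum over ordered pairs of indices with distinct points -/
theorem mw_vdmc_rg_sum_pairs (pts : Fin m → α) (E : α →₀ ℤ)
    (hE : ∑ k, Finsupp.single (pts k) (1 : ℤ) = E) (h : α → α → ℝ)
    (hsymm : ∀ P Q, h P Q = h Q P) :
    ∑ k : Fin m, ∑ l : Fin m,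
        (if l.val < k.val ∧ pts l ≠ pts k then h (pts k) (pts l) else 0)
      = E.sum fun P n => E.sum fun Q m' =>
          if P = Q then (0 : ℝ) else (n : ℝ) * (m' : ℝ) / 2 * h P Q := by
  set T : ℝ := ∑ k : Fin m, ∑ l : Fin m,
        (if l.val < k.val ∧ pts l ≠ pts k then h (pts k) (pts l) else 0) with hT
  -- the mirror sum
  have hmirror : T = ∑ k : Fin m, ∑ l : Fin m,
        (if k.val < l.val ∧ pts l ≠ pts k then h (pts k) (pts l) else 0) := by
    rw [hT, Finset.sum_comm]
    refine Finset.sum_congr rfl fun k _ => Finset.sum_congr rfl fun l _ => ?_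
    by_cases hc : k.val < l.val ∧ pts l ≠ pts k
    · rw [if_pos hc, if_pos ⟨hc.1, fun h' => hc.2 h'.symm⟩, hsymm]
    · rw [if_neg hc, if_neg (fun h' => hc ⟨h'.1, fun h'' => h'.2 h''.symm⟩)]
  -- the full sum
  have hfull : T + T = ∑ k : Fin m, ∑ l : Fin m,
        (if pts k = pts l then (0 : ℝ) else h (pts k) (pts l)) := by
    nth_rewrite 2 [hmirror]
    rw [hT, ← Finset.sum_add_distrib]
    refine Finset.sum_congr rfl fun k _ => ?_
    rw [← Finset.sum_add_distrib]
    refine Finset.sum_congr rfl fun l _ => ?_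
    by_cases hkl : pts k = pts l
    · rw [if_pos hkl, if_neg (fun h' => h'.2 hkl.symm), if_neg (fun h' => h'.2 hkl.symm),
        add_zero]
    · have hne : pts l ≠ pts k := fun h' => hkl h'.symm
      have hne' : l.val ≠ k.val := fun h' => hne (by rw [Fin.ext h'])
      rw [if_neg hkl]
      rcases lt_or_gt_of_ne hne' with h1 | h1
      · rw [if_pos ⟨h1, hne⟩, if_neg (fun h' => by omega), add_zero]
      · rw [if_neg (fun h' => by omega), if_pos ⟨h1, hne⟩, zero_add]
  -- regroup the full sum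
  have hreg : ∑ k : Fin m, ∑ l : Fin m,
        (if pts k = pts l then (0 : ℝ) else h (pts k) (pts l))
      = E.sum fun P n => (n : ℝ) * E.sum fun Q m' =>
          (m' : ℝ) * (if P = Q then (0 : ℝ) else h P Q) := by
    rw [← mw_vdmc_rg_sum pts E hE (fun P => E.sum fun Q m' =>
          (m' : ℝ) * (if P = Q then (0 : ℝ) else h P Q))]
    refine Finset.sum_congr rfl fun k _ => ?_
    exact mw_vdmc_rg_sum pts E hE (fun Q => if pts k = Q then (0 : ℝ) else h (pts k) Q)
  have hT2 : T = (T + T) / 2 := by ring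
  rw [hT2, hfull, hreg, Finsupp.sum, Finsupp.sum, Finset.sum_div]
  refine Finset.sum_congr rfl fun P _ => ?_
  rw [Finsupp.sum, Finsupp.sum, Finset.mul_sum, Finset.sum_div]
  refine Finset.sum_congr rfl fun Q _ => ?_
  by_cases hPQ : P = Q
  · rw [if_pos hPQ, if_pos hPQ]
    ring
  · rw [if_neg hPQ, if_neg hPQ]
    ring

/-- (R4) every effective divisor of degree `m` has an enumeration `pts : Fin m → α` -/
theorem mw_vdmc_rg_exists_enum :
    ∀ (m : ℕ) (E : α →₀ ℤ), 0 ≤ E → (E.sum fun _ n => n) = (m : ℤ) →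
      ∃ pts : Fin m → α, ∑ k, Finsupp.single (pts k) (1 : ℤ) = E := by
  intro m
  induction m with
  | zero =>
    intro E hE hdeg
    refine ⟨Fin.elim0, ?_⟩
    rw [Finset.univ_eq_empty, Finset.sum_empty]
    ext P
    rw [Finsupp.zero_apply]
    by_contra hP
    have hPs : P ∈ E.support := Finsupp.mem_support_iff.mpr (fun h => hP h.symm)
    have hnn : ∀ Q ∈ E.support, (0 : ℤ) ≤ E Q := fun Q _ => by
      have := Finsupp.le_def.mp hE Q
      simpa using this
    have hle : E P ≤ ∑ Q ∈ E.support, E Q := Finset.single_le_sum hnn hPs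
    rw [Finsupp.sum] at hdeg
    rw [hdeg] at hle
    have h0 := hnn P hPs
    have : E P = 0 := le_antisymm (by simpa using hle) h0
    exact hP this.symm
  | succ m ih =>
    intro E hE hdeg
    have hnn : ∀ Q, (0 : ℤ) ≤ E Q := fun Q => by
      have := Finsupp.le_def.mp hE Q
      simpa using this
    have hex : ∃ P, 0 < E P := by
      by_contra hno
      push Not at hno
      have hz : E = 0 := by
        ext Q
        exact le_antisymm (hno Q) (hnn Q)
      rw [hz, Finsupp.sum_zero_index] at hdeg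
      have : (0 : ℤ) < (m + 1 : ℕ) := by positivity
      omega
    obtain ⟨P, hP⟩ := hex
    have hE' : 0 ≤ E - Finsupp.single P (1 : ℤ) := by
      rw [Finsupp.le_def]
      intro Q
      rw [Finsupp.zero_apply, Finsupp.sub_apply, Finsupp.single_apply]
      split_ifs with hQ
      · rw [← hQ]; omega
      · have := hnn Q; omega
    have hsum : ∀ D : α →₀ ℤ, (D.sum fun _ n => n)
        = Finsupp.liftAddHom (fun _ : α => AddMonoidHom.id ℤ) D := fun D => by
      rw [Finsupp.liftAddHom_apply]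
      rfl
    have hdeg' : ((E - Finsupp.single P (1 : ℤ)).sum fun _ n => n) = (m : ℤ) := by
      rw [hsum, map_sub, ← hsum, hdeg, Finsupp.liftAddHom_apply_single]
      simp
    obtain ⟨pts', hpts'⟩ := ih _ hE' hdeg'
    refine ⟨Fin.snoc pts' P, ?_⟩
    rw [Fin.sum_univ_castSucc]
    simp only [Fin.snoc_castSucc, Fin.snoc_last]
    rw [hpts']
    abel

end Fermat.Agent.MW
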